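import Fermat.Agent.Extra.SwitchThree.Hesse

/-!
# A member of the Hesse pencil that is irreducible at `5`

A member whose mod `5` representation is reducible has `j = (r ^ 2 + 10 r + 5) ^ 3 / r`. In a box of
side `n ^ 3` such members come from `O(n ^ 4)` reduced fractions `r`, each from boundedly many
members, while the box contains `≫ n ^ 6` coprime parameters.
-/

set_option autoImplicit false

namespace Fermat.Agent.Extra.SwitchThree

open Finset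

/-- Reducibility data in integers: `F ^ 3 a b ^ 5 = D Q ^ 3`. -/
theorem exists_fiveParam_data {F D : ℤ} (hFD : IsCoprime F D) {r : ℚ} (hr : r ≠ 0)
    (h : (F : ℚ) ^ 3 * r = (D : ℚ) * (r ^ 2 + 10 * r + 5) ^ 3) :
    ∃ a b z : ℤ, a ≠ 0 ∧ 0 < b ∧ IsCoprime a b ∧ z ≠ 0 ∧ |z| ≤ 5 ∧
      a ^ 2 + 10 * a * b + 5 * b ^ 2 = z * F ∧ a * b ^ 5 = z ^ 3 * D := by
  set a := r.num with ha
  set b : ℤ := (r.den : ℤ) with hb
  have hb0 : 0 < b := by simp [hb, r.den_pos]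
  have ha0 : a ≠ 0 := Rat.num_ne_zero.mpr hr
  have hab : IsCoprime a b := Int.isCoprime_iff_nat_coprime.mpr (by simpa [ha, hb] using r.reduced)
  set Q := a ^ 2 + 10 * a * b + 5 * b ^ 2 with hQ
  have hrab : (r : ℚ) = (a : ℚ) / b := by simp [ha, hb, r.num_div_den]
  have hbq : (b : ℚ) ≠ 0 := by exact_mod_cast hb0.ne'
  have e : F ^ 3 * (a * b ^ 5) = D * Q ^ 3 := by
    have e' : ((F ^ 3 * (a * b ^ 5) : ℤ) : ℚ) = ((D * Q ^ 3 : ℤ) : ℚ) := by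
      rw [hQ]
      push_cast
      rw [hrab] at h
      field_simp at h
      linear_combination h
    exact_mod_cast e'
  have hQ0 : Q ≠ 0 := by
    intro h0
    have h80 : (a + 5 * b) ^ 2 = 20 * b ^ 2 := by rw [hQ] at h0; linarith
    have : (((a + 5 * b : ℤ) : ℚ) / b) ^ 2 = 20 := by
      rw [div_pow, div_eq_iff (pow_ne_zero 2 hbq)]
      exact_mod_cast h80
    set q : ℚ := ((a + 5 * b : ℤ) : ℚ) / b
    have hn := congrArg Rat.num this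
    rw [Rat.num_pow] at hn
    norm_num at hn
    have h1 : q.num ≤ 4 := by nlinarith
    have h2 : -4 ≤ q.num := by nlinarith
    interval_cases hq : q.num <;> simp at hn
  have hF0 : F ≠ 0 := by
    intro h0
    rw [h0, zero_pow three_ne_zero, zero_mul, eq_comm, mul_eq_zero] at e
    rcases e with e | e
    · rw [h0, e] at hFD; exact not_isCoprime_zero_zero hFD
    · exact hQ0 (eq_zero_of_pow_eq_zero e)
  obtain ⟨z, hz⟩ : F ∣ Q := (Int.pow_dvd_pow_iff three_ne_zero).mp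
    (hFD.pow_left.dvd_of_dvd_mul_left ⟨a * b ^ 5, e.symm⟩)
  have hab5 : a * b ^ 5 = z ^ 3 * D := by
    refine mul_left_cancel₀ (pow_ne_zero 3 hF0) ?_
    rw [e, hz]; ring
  have hz5 : z ∣ 5 := by
    have hzb : IsCoprime z b := by
      have hQb : IsCoprime Q b := by
        rw [hQ, show a ^ 2 + 10 * a * b + 5 * b ^ 2 = a ^ 2 + b * (10 * a + 5 * b) by ring]
        exact hab.pow_left.add_mul_left_left _
      exact hQb.of_isCoprime_of_dvd_left ⟨F, by rw [hz, mul_comm]⟩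
    have hza : z ∣ a := hzb.pow_right.dvd_of_dvd_mul_right
      (hab5 ▸ dvd_mul_of_dvd_left (dvd_pow_self z three_ne_zero) D)
    have h5 : z ∣ 5 * b ^ 2 := by
      rw [show 5 * b ^ 2 = Q - a * (a + 10 * b) by rw [hQ]; ring]
      exact dvd_sub ⟨F, by rw [hz, mul_comm]⟩ (hza.mul_right _)
    exact hzb.pow_right.dvd_of_dvd_mul_right h5
  refine ⟨a, b, z, ha0, hb0, hab, fun h0 => ?_, Int.le_of_dvd (by norm_num) ((abs_dvd z 5).mpr hz5),
    hz.trans (mul_comm F z), hab5⟩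
  rw [h0] at hz
  exact hQ0 (by rw [hz, mul_zero])

/-- `|a|, |b| ≤ M H²`. -/
theorem abs_le_of_fiveParam {a b X Y M h : ℤ} (hb : 0 < b)
    (hQ : |a ^ 2 + 10 * a * b + 5 * b ^ 2| ≤ X) (hP : |a| * |b| ^ 5 ≤ Y)
    (hX : 2 * X ≤ (M * h) ^ 2) (hY : 20 ^ 5 * Y ≤ (M * h) ^ 6) (hM : 0 ≤ M * h) :
    |a| ≤ M * h ∧ |b| ≤ M * h := by
  have hb' : |b| = b := abs_of_pos hb
  rw [hb'] at hP ⊢
  have h1 : -|a| ≤ a := neg_abs_le a
  have h2 : a ^ 2 = |a| ^ 2 := (sq_abs a).symm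
  have h3 := (abs_le.mp hQ).2
  have h4 := (abs_le.mp hQ).1
  have h5 : 0 ≤ |a| := abs_nonneg a
  have hab : -(|a| * b) ≤ a * b := by nlinarith
  rcases le_total (20 * b) |a| with hc | hc
  · have hA : |a| ^ 2 ≤ (M * h) ^ 2 := by nlinarith
    have := (pow_le_pow_iff_left₀ h5 hM two_ne_zero).mp hA
    exact ⟨this, by linarith⟩
  rcases le_total (20 * |a|) b with hd | hd
  · have hB : b ^ 2 ≤ (M * h) ^ 2 := by nlinarith
    have := (pow_le_pow_iff_left₀ hb.le hM two_ne_zero).mp hB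
    exact ⟨by linarith, this⟩
  constructor
  · refine (pow_le_pow_iff_left₀ h5 hM (show 6 ≠ 0 by norm_num)).mp (le_trans ?_ hY)
    calc |a| ^ 6 = |a| * |a| ^ 5 := by ring
      _ ≤ |a| * (20 * b) ^ 5 := by gcongr
      _ ≤ 20 ^ 5 * Y := by rw [mul_pow]; nlinarith
  · refine (pow_le_pow_iff_left₀ hb.le hM (show 6 ≠ 0 by norm_num)).mp (le_trans ?_ hY)
    calc b ^ 6 = b * b ^ 5 := by ring
      _ ≤ (20 * |a|) * b ^ 5 := by gcongr
      _ ≤ 20 ^ 5 * Y := by nlinarith [pow_pos hb 5]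

/-- In `a b ^ 5 = k d ^ 3` coprime `a` and `b` are, up to bounded factors, cubes. -/
theorem cube_shape {a b k d : ℤ} (hab : IsCoprime a b) (ha : a ≠ 0) (hb : b ≠ 0)
    (h : a * b ^ 5 = k * d ^ 3) :
    (∃ m s : ℤ, a = m * s ^ 3 ∧ m ∣ k) ∧ ∃ m t : ℤ, b * m = t ^ 3 ∧ m ∣ k ∧ m ≠ 0 := by
  have key : ∀ x y : ℤ, IsCoprime x y → x ≠ 0 → x * y = k * d ^ 3 →
      ∃ m s : ℤ, x = m * s ^ 3 ∧ m ∣ k := by
    intro x y hxy hx he
    set s : ℤ := (Int.gcd x d : ℤ) with hs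
    have hsx : s ∣ x := Int.gcd_dvd_left x d
    have hsd : s ∣ d := Int.gcd_dvd_right x d
    have hs3 : s ^ 3 ∣ x := by
      have h1 : s ^ 3 ∣ x * y := he ▸ (pow_dvd_pow_of_dvd hsd 3).mul_left k
      exact (hxy.of_isCoprime_of_dvd_left hsx).pow_left.dvd_of_dvd_mul_right h1
    obtain ⟨m, hm⟩ := hs3
    have hs0 : s ≠ 0 := fun h0 => hx (by rw [hm, h0]; ring)
    refine ⟨m, s, by rw [hm, mul_comm], ?_⟩
    obtain ⟨u, v, huv⟩ : ∃ u v, s = x * u + d * v := ⟨_, _, Int.gcd_eq_gcd_ab x d⟩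
    have hdiv : x ∣ k * s ^ 3 := by
      rw [huv]
      refine ⟨k * u * (x ^ 2 * u ^ 2 + 3 * x * u * (d * v) + 3 * (d * v) ^ 2) + y * v ^ 3, ?_⟩
      linear_combination (-v ^ 3) * he
    rw [hm, mul_comm k] at hdiv
    exact (mul_dvd_mul_iff_left (pow_ne_zero 3 hs0)).mp hdiv
  refine ⟨key a (b ^ 5) hab.pow_right ha h, ?_⟩
  obtain ⟨m, s, hm, hmk⟩ :=
    key (b ^ 5) a hab.symm.pow_left (pow_ne_zero 5 hb) (by rw [mul_comm, h])
  have hm0 : m ≠ 0 := fun h0 => pow_ne_zero 5 hb (by rw [hm, h0, zero_mul])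
  have hs0 : s ≠ 0 := fun h0 => pow_ne_zero 5 hb (by rw [hm, h0]; ring)
  obtain ⟨t, ht⟩ : s ∣ b ^ 2 := (Int.pow_dvd_pow_iff three_ne_zero).mp
    ⟨b * m, by rw [show (b ^ 2) ^ 3 = b * b ^ 5 by ring, hm]; ring⟩
  refine ⟨m, t, ?_, hmk, hm0⟩
  refine mul_left_cancel₀ (pow_ne_zero 3 hs0) ?_
  rw [← mul_pow, ← ht, show (b ^ 2) ^ 3 = b * b ^ 5 by ring, hm]
  ring

open Polynomial in
/-- At most four coprime parameters with given values. -/
theorem card_fibre_le {C₄ C₆ A B : ℤ} (h6 : C₆ ≠ 0) {S : Finset (ℤ × ℤ)}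
    (hS : ∀ v ∈ S, 0 < v.2 ∧ IsCoprime v.1 v.2 ∧ (B ≠ 0 → hesseFour C₄ C₆ v.1 v.2 = A) ∧
      hesseDisc C₄ C₆ v.1 v.2 = B) : S.card ≤ 4 := by
  classical
  let D : ℚ[X] := X ^ 4 - C (6 * (C₄ : ℚ)) * X ^ 2 - C (8 * (C₆ : ℚ)) * X - C (3 * (C₄ : ℚ) ^ 2)
  let F : ℚ[X] := C (C₄ : ℚ) * X ^ 4 + C (4 * (C₆ : ℚ)) * X ^ 3
    + C (6 * (C₄ : ℚ) ^ 2) * X ^ 2 + C (4 * (C₄ : ℚ) * C₆) * X
    - C (3 * (C₄ : ℚ) ^ 3 - 4 * (C₆ : ℚ) ^ 2)
  let P : ℚ[X] := if B = 0 then D else C (B : ℚ) * F - C (A : ℚ) * D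
  have hdeg : P.natDegree ≤ 4 := by
    simp only [P, D, F]
    split_ifs <;> compute_degree
  have hP : P ≠ 0 := by
    intro h0
    simp only [P] at h0
    split_ifs at h0 with hB
    · have := congrArg (fun q : ℚ[X] => q.coeff 4) h0
      simp only [D, coeff_sub, coeff_C_mul, coeff_X_pow, coeff_X, coeff_C, coeff_zero] at this
      norm_num at this
    · have := congrArg (fun q : ℚ[X] => q.coeff 3) h0
      simp only [D, F, coeff_sub, coeff_add, coeff_C_mul, coeff_X_pow, coeff_X, coeff_C,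
        coeff_zero] at this
      norm_num [hB, h6] at this
  have hmem : ∀ v ∈ S, (v.1 : ℚ) / v.2 ∈ P.roots.toFinset := by
    intro v hv
    obtain ⟨hu, -, hA, hB⟩ := hS v hv
    have hu' : (v.2 : ℚ) ≠ 0 := by exact_mod_cast hu.ne'
    have hF : B ≠ 0 → F.eval ((v.1 : ℚ) / v.2) = (A : ℚ) / (v.2 : ℚ) ^ 4 := fun hB' => by
      rw [← hA hB']; simp [F, hesseFour]; field_simp
    have hD : D.eval ((v.1 : ℚ) / v.2) = (B : ℚ) / (v.2 : ℚ) ^ 4 := by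
      rw [← hB]; simp [D, hesseDisc]; field_simp
    rw [Multiset.mem_toFinset, mem_roots hP, IsRoot]
    simp only [P]
    split_ifs with hB0
    · rw [hD, hB0]; simp
    · rw [eval_sub, eval_mul, eval_mul, eval_C, eval_C, hF hB0, hD]; ring
  refine (Finset.card_le_card_of_injOn _ hmem ?_).trans
    ((Multiset.toFinset_card_le _).trans (P.card_roots'.trans hdeg))
  intro v hv w hw he
  obtain ⟨hv2, hvc, -⟩ := hS v hv
  obtain ⟨hw2, hwc, -⟩ := hS w hw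
  obtain ⟨h1, h2⟩ := (Rat.div_int_inj hv2 hw2
    (Int.isCoprime_iff_nat_coprime.mp hvc) (Int.isCoprime_iff_nat_coprime.mp hwc)) he
  exact Prod.ext h1 h2

/-- A positive proportion of the box gives coprime parameters. -/
theorem card_box_coprime {N H : ℕ} (hH : 3000 ≤ H) :
    (H : ℚ) ^ 2 / 5 ≤ (((Icc 1 H ×ˢ Icc 1 H).filter
      fun v => Nat.Coprime (1 + N * v.1) (N * v.2)).card : ℚ) := by
  classical
  set box := Icc 1 H ×ˢ Icc 1 H with hbox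
  set good := box.filter fun v => Nat.Coprime (1 + N * v.1) (N * v.2) with hgood
  have hsub : box \ good ⊆ (Icc 2 H).biUnion fun d =>
      (Icc 1 H).filter (fun i => d ∣ 1 + N * i) ×ˢ (Icc 1 H).filter (fun j => d ∣ j) := by
    intro v hv
    rw [mem_sdiff, hgood, mem_filter, not_and] at hv
    obtain ⟨hvb, hv'⟩ := hv
    have hnc := hv' hvb
    rw [hbox, mem_product] at hvb
    have hN : Nat.Coprime (1 + N * v.1) N := by simp
    have hj : ¬ Nat.Coprime (1 + N * v.1) v.2 := fun h => hnc (hN.mul_right h)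
    obtain ⟨d, hd, hd1, hd2⟩ := Nat.Prime.not_coprime_iff_dvd.mp hj
    have hd' := Nat.le_of_dvd (mem_Icc.mp hvb.2).1 hd2
    rw [mem_biUnion]
    refine ⟨d, mem_Icc.mpr ⟨hd.two_le, hd'.trans (mem_Icc.mp hvb.2).2⟩, mem_product.mpr
      ⟨mem_filter.mpr ⟨hvb.1, hd1⟩, mem_filter.mpr ⟨hvb.2, hd2⟩⟩⟩
  have hi : ∀ d ∈ Icc 2 H, ((Icc 1 H).filter fun i => d ∣ 1 + N * i).card ≤ H / d + 1 := by
    intro d hd
    have hd2 : 2 ≤ d := (mem_Icc.mp hd).1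
    refine le_of_le_of_eq (Finset.card_le_card_of_injOn (fun i => i / d) (fun i hi => ?_)
      fun i hi j hj he => ?_) (card_range (H / d + 1))
    · exact mem_range.mpr (Nat.lt_succ_of_le
        (Nat.div_le_div_right (mem_Icc.mp (mem_filter.mp hi).1).2))
    · have h1 := (mem_filter.mp hi).2
      have h2 := (mem_filter.mp hj).2
      have hNd : IsUnit (N : ZMod d) := by
        refine (ZMod.isUnit_iff_coprime N d).mpr (Nat.Coprime.symm ?_)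
        exact Nat.Coprime.coprime_dvd_left h1 (by simp)
      have hz : ((i : ℕ) : ZMod d) = (j : ℕ) := by
        rw [← ZMod.natCast_eq_zero_iff] at h1 h2
        push_cast at h1 h2
        exact hNd.mul_left_cancel (by linear_combination h1 - h2)
      rw [ZMod.natCast_eq_natCast_iff'] at hz
      dsimp only at he
      rw [← Nat.div_add_mod i d, ← Nat.div_add_mod j d, he, hz]
  have hj : ∀ d ∈ Icc 2 H, ((Icc 1 H).filter fun j => d ∣ j).card ≤ H / d := by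
    intro d hd
    rw [show Icc 1 H = Ioc 0 H from rfl, Nat.Ioc_filter_dvd_card_eq_div]
  have hbad : ((box \ good).card : ℚ) ≤
      ∑ d ∈ Icc 2 H, ((H : ℚ) / d + 1) * ((H : ℚ) / d) := by
    refine (Nat.cast_le.mpr ((card_le_card hsub).trans (card_biUnion_le.trans
      (sum_le_sum fun d hd => ?_ : _ ≤ ∑ d ∈ Icc 2 H, (H / d + 1) * (H / d))))).trans ?_
    · rw [card_product]; exact Nat.mul_le_mul (hi d hd) (hj d hd)
    · push_cast
      refine sum_le_sum fun d _ => ?_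
      gcongr <;> exact Nat.cast_div_le
  have hsq : ∑ d ∈ Icc 2 H, ((d : ℚ) ^ 2)⁻¹ ≤ 3 / 4 := by
    have hstep : ∀ m : ℕ, 2 ≤ m → ∑ d ∈ Icc 2 m, ((d : ℚ) ^ 2)⁻¹ ≤ 3 / 4 - 1 / m := by
      intro m hm
      induction m, hm using Nat.le_induction with
      | base => norm_num
      | succ m hm ih =>
        rw [sum_Icc_succ_top (by omega : 2 ≤ m + 1)]
        have hm0 : (0 : ℚ) < m := by exact_mod_cast (by omega : 0 < m)
        have : (((m + 1 : ℕ) : ℚ) ^ 2)⁻¹ ≤ 1 / (m : ℚ) - 1 / ((m + 1 : ℕ) : ℚ) := by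
          push_cast
          rw [div_sub_div _ _ hm0.ne' (by positivity), inv_eq_one_div,
            div_le_div_iff₀ (by positivity) (by positivity)]
          nlinarith
        linarith
    exact (hstep H (by omega)).trans (by simp)
  have hone : ∑ d ∈ Icc 2 H, ((d : ℚ))⁻¹ ≤ 100 + (H : ℚ) / 100 := by
    calc ∑ d ∈ Icc 2 H, ((d : ℚ))⁻¹
        ≤ ∑ d ∈ Icc 2 H, ((if d ≤ 100 then (1 : ℚ) else 0) + 1 / 100) := by
          refine sum_le_sum fun d hd => ?_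
          have hd2 : (2 : ℚ) ≤ d := by exact_mod_cast (mem_Icc.mp hd).1
          split_ifs with h
          · have : ((d : ℚ))⁻¹ ≤ 1 := inv_le_one_of_one_le₀ (by linarith)
            linarith
          · rw [zero_add, inv_eq_one_div]
            exact one_div_le_one_div_of_le (by norm_num)
              (by exact_mod_cast (by omega : 100 ≤ d))
      _ = ((Icc 2 H).filter (· ≤ 100)).card + ((Icc 2 H).card : ℚ) * (1 / 100) := by
          rw [sum_add_distrib, sum_boole, sum_const, nsmul_eq_mul]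
      _ ≤ 100 + (H : ℚ) / 100 := by
          have h1 : ((Icc 2 H).filter (· ≤ 100)).card ≤ (Icc 1 100).card :=
            card_le_card fun d hd => by
              simp only [mem_filter, mem_Icc] at hd ⊢; omega
          rw [Nat.card_Icc] at h1
          have h2 : (Icc 2 H).card ≤ H := by rw [Nat.card_Icc]; omega
          have h1' : (((Icc 2 H).filter (· ≤ 100)).card : ℚ) ≤ 100 := by exact_mod_cast h1
          have h2' : ((Icc 2 H).card : ℚ) ≤ H := by exact_mod_cast h2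
          linarith
  have hsum : ∑ d ∈ Icc 2 H, ((H : ℚ) / d + 1) * ((H : ℚ) / d)
      = (H : ℚ) ^ 2 * ∑ d ∈ Icc 2 H, ((d : ℚ) ^ 2)⁻¹ + (H : ℚ) * ∑ d ∈ Icc 2 H, ((d : ℚ))⁻¹ := by
    rw [mul_sum, mul_sum, ← sum_add_distrib]
    exact sum_congr rfl fun d _ => by ring
  have htot : (box.card : ℚ) = (H : ℚ) ^ 2 := by
    rw [hbox, card_product, Nat.card_Icc]; push_cast [Nat.add_sub_cancel]; ring
  have hsplit : (box \ good).card + good.card = box.card :=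
    card_sdiff_add_card_eq_card (filter_subset _ _)
  have hsplit' : ((box \ good).card : ℚ) + good.card = box.card := by exact_mod_cast hsplit
  rw [hsum] at hbad
  have hH' : (3000 : ℚ) ≤ H := by exact_mod_cast hH
  nlinarith [mul_le_mul_of_nonneg_left hsq (sq_nonneg (H : ℚ)),
    mul_le_mul_of_nonneg_left hone (show (0 : ℚ) ≤ H by linarith)]

theorem abs_hesse_le {C₄ C₆ l u C L : ℤ} (h4 : |C₄| ≤ C) (h6 : |C₆| ≤ C) (hC : 1 ≤ C)
    (hl : |l| ≤ L) (hu : |u| ≤ L) :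
    |hesseFour C₄ C₆ l u| ≤ 22 * C ^ 3 * L ^ 4 ∧ |hesseDisc C₄ C₆ l u| ≤ 22 * C ^ 3 * L ^ 4 := by
  have hC0 : 0 ≤ C := by linarith
  have hL0 : 0 ≤ L := (abs_nonneg l).trans hl
  have hp : ∀ i j : ℕ, i + j = 4 → |l| ^ i * |u| ^ j ≤ L ^ 4 := fun i j hij => by
    rw [← hij, pow_add]; gcongr
  have hc : ∀ i j : ℕ, i + j ≤ 3 → |C₄| ^ i * |C₆| ^ j ≤ C ^ 3 := fun i j hij => by
    refine le_trans ?_ (pow_le_pow_right₀ hC hij)
    rw [pow_add]; gcongr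
  have T : ∀ (k : ℤ) (i j i' j' : ℕ), i + j ≤ 3 → i' + j' = 4 →
      |k * C₄ ^ i * C₆ ^ j * l ^ i' * u ^ j'| ≤ |k| * (C ^ 3 * L ^ 4) := by
    intro k i j i' j' h1 h2
    rw [show k * C₄ ^ i * C₆ ^ j * l ^ i' * u ^ j' = k * ((C₄ ^ i * C₆ ^ j) * (l ^ i' * u ^ j'))
      by ring, abs_mul, abs_mul, abs_mul (C₄ ^ i), abs_mul (l ^ i'), abs_pow, abs_pow, abs_pow,
      abs_pow]
    exact mul_le_mul_of_nonneg_left (mul_le_mul (hc i j h1) (hp i' j' h2) (by positivity)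
      (by positivity)) (abs_nonneg k)
  have a1 := abs_le.mp (T 1 1 0 4 0 (by norm_num) (by norm_num))
  have a2 := abs_le.mp (T 4 0 1 3 1 (by norm_num) (by norm_num))
  have a3 := abs_le.mp (T 6 2 0 2 2 (by norm_num) (by norm_num))
  have a4 := abs_le.mp (T 4 1 1 1 3 (by norm_num) (by norm_num))
  have a5 := abs_le.mp (T 3 3 0 0 4 (by norm_num) (by norm_num))
  have a6 := abs_le.mp (T 4 0 2 0 4 (by norm_num) (by norm_num))
  have b1 := abs_le.mp (T 1 0 0 4 0 (by norm_num) (by norm_num))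
  have b2 := abs_le.mp (T 6 1 0 2 2 (by norm_num) (by norm_num))
  have b3 := abs_le.mp (T 8 0 1 1 3 (by norm_num) (by norm_num))
  have b4 := abs_le.mp (T 3 2 0 0 4 (by norm_num) (by norm_num))
  norm_num at a1 a2 a3 a4 a5 a6 b1 b2 b3 b4
  constructor <;> rw [abs_le] <;> simp only [hesseFour, hesseDisc] <;> constructor <;> linarith

/-- The size and shape of reducibility data for parameters in a box. -/
theorem fiveParam_shape {Δ F D a b z h : ℤ} {K₀ K M B n : ℕ} (hΔ : Δ ≠ 0)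
    (hK : K = 125 * Δ.natAbs) (hM : M = 100 * (1 + K₀ + Δ.natAbs))
    (hB : B = (K + 1) * (M + 1)) (hh : h = ((n : ℤ) ^ 3) ^ 2)
    (hF : |F| ≤ K₀ * h ^ 2) (hD : |D| ≤ K₀ * h ^ 2) (ha : a ≠ 0) (hb : 0 < b)
    (hab : IsCoprime a b) (hz : z ≠ 0) (hz5 : |z| ≤ 5)
    (hQ : a ^ 2 + 10 * a * b + 5 * b ^ 2 = z * F) (hP : a * b ^ 5 = z ^ 3 * (Δ * D ^ 3)) :
    (∃ m s : ℤ, |m| ≤ K ∧ |s| ≤ B * (n : ℤ) ^ 2 ∧ a = m * s ^ 3) ∧
      ∃ m t : ℤ, |m| ≤ K ∧ |t| ≤ B * (n : ℤ) ^ 2 ∧ t ^ 3 / m = b := by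
  have hh0 : 0 ≤ h := hh ▸ sq_nonneg _
  have hQ' : |a ^ 2 + 10 * a * b + 5 * b ^ 2| ≤ 5 * (K₀ * h ^ 2) := by
    rw [hQ, abs_mul]
    exact mul_le_mul hz5 hF (abs_nonneg _) (by norm_num)
  have hP' : |a| * |b| ^ 5 ≤ 125 * (Δ.natAbs * (K₀ * h ^ 2) ^ 3) := by
    rw [← abs_pow, ← abs_mul, hP, abs_mul, abs_mul, abs_pow, abs_pow, Int.natCast_natAbs]
    exact mul_le_mul ((pow_le_pow_left₀ (abs_nonneg z) hz5 3).trans (by norm_num))
      (mul_le_mul_of_nonneg_left (pow_le_pow_left₀ (abs_nonneg _) hD 3)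
        (abs_nonneg _)) (by positivity) (by norm_num)
  set S : ℤ := 1 + K₀ + Δ.natAbs with hS
  have hS1 : (1 : ℤ) ≤ S := by rw [hS]; linarith [Int.natCast_nonneg K₀, Int.natCast_nonneg Δ.natAbs]
  have hMS : (M : ℤ) = 100 * S := by rw [hM, hS]; push_cast; ring
  have hK₀S : (K₀ : ℤ) ≤ S := by rw [hS]; linarith [Int.natCast_nonneg Δ.natAbs]
  have hΔS : (Δ.natAbs : ℤ) ≤ S := by rw [hS]; linarith [Int.natCast_nonneg K₀]
  obtain ⟨hA, hB'⟩ := abs_le_of_fiveParam hb hQ' hP'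
    (M := M) (h := h) (by
      rw [hMS, mul_pow, mul_pow]
      calc 2 * (5 * ((K₀ : ℤ) * h ^ 2)) ≤ 10 * (S ^ 2 * h ^ 2) := by
            rw [show 2 * (5 * ((K₀ : ℤ) * h ^ 2)) = 10 * (K₀ * h ^ 2) by ring]
            gcongr
            exact hK₀S.trans (le_self_pow₀ hS1 two_ne_zero)
        _ ≤ _ := by nlinarith [mul_nonneg (sq_nonneg S) (sq_nonneg h)])
    (by
      rw [hMS]
      calc 20 ^ 5 * (125 * ((Δ.natAbs : ℤ) * ((K₀ : ℤ) * h ^ 2) ^ 3))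
          ≤ 20 ^ 5 * (125 * (S * (S * h ^ 2) ^ 3)) := by gcongr
        _ = 400000000 * (S ^ 4 * h ^ 6) := by ring
        _ ≤ 1000000000000 * (S ^ 6 * h ^ 6) := by
            gcongr ?_ * (?_ * _)
            · norm_num
            · exact pow_le_pow_right₀ hS1 (by norm_num)
        _ = _ := by ring)
    (mul_nonneg (Nat.cast_nonneg M) hh0)
  obtain ⟨⟨m, s, hms, hmk⟩, m', t, hmt, hmk', hm'⟩ :=
    cube_shape (k := z ^ 3 * Δ) (d := D) hab ha hb.ne'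
      (by rw [hP]; ring)
  have hkK : |z ^ 3 * Δ| ≤ (K : ℤ) := by
    rw [abs_mul, abs_pow, hK]
    push_cast
    exact mul_le_mul ((pow_le_pow_left₀ (abs_nonneg z) hz5 3).trans (by norm_num)) le_rfl
      (abs_nonneg _) (by norm_num)
  have hk0 : (0 : ℤ) < |z ^ 3 * Δ| := abs_pos.mpr (mul_ne_zero (pow_ne_zero 3 hz) hΔ)
  have hmK : |m| ≤ (K : ℤ) := (Int.le_of_dvd hk0 ((abs_dvd_abs _ _).mpr hmk)).trans hkK
  have hmK' : |m'| ≤ (K : ℤ) := (Int.le_of_dvd hk0 ((abs_dvd_abs _ _).mpr hmk')).trans hkK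
  have hroot : ∀ x : ℤ, |x| ^ 3 ≤ ((K : ℤ) + 1) * (M * h) → |x| ≤ B * (n : ℤ) ^ 2 := by
    intro x hx
    refine (pow_le_pow_iff_left₀ (abs_nonneg x) (by positivity) three_ne_zero).mp (hx.trans ?_)
    rw [hh, hB]
    push_cast
    rw [show ((K : ℤ) + 1) * (M * ((n : ℤ) ^ 3) ^ 2) = ((K : ℤ) + 1) * M * n ^ 6 by ring,
      mul_pow, ← pow_mul]
    refine mul_le_mul_of_nonneg_right ?_ (by positivity)
    refine le_trans ?_ (le_self_pow₀ (by nlinarith [Int.natCast_nonneg K, Int.natCast_nonneg M])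
      three_ne_zero)
    nlinarith [Int.natCast_nonneg K, Int.natCast_nonneg M]
  have hs : |s| ≤ B * (n : ℤ) ^ 2 := by
    refine hroot s ?_
    have hm0 : 1 ≤ |m| := Int.one_le_abs fun h0 => ha (by rw [hms, h0, zero_mul])
    have h1 : |a| = |m| * |s| ^ 3 := by rw [hms, abs_mul, abs_pow]
    have h2 : |s| ^ 3 ≤ |a| := by
      rw [h1]; exact le_mul_of_one_le_left (by positivity) hm0
    refine (h2.trans hA).trans (le_mul_of_one_le_left (mul_nonneg (Nat.cast_nonneg M) hh0) ?_)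
    linarith [Int.natCast_nonneg K]
  have ht : |t| ≤ B * (n : ℤ) ^ 2 := by
    refine hroot t ?_
    rw [← abs_pow, ← hmt, abs_mul, mul_comm]
    exact mul_le_mul (by linarith) hB' (abs_nonneg _) (by positivity)
  exact ⟨⟨m, s, hmK, hs, hms⟩, m', t, hmK', ht, by rw [← hmt, Int.mul_ediv_cancel _ hm']⟩

/-- Some coprime member of the pencil, congruent to the original, is not reducible at `5`. -/
theorem exists_member_not_fiveParam {C₄ C₆ Δ : ℤ} (hΔ : Δ ≠ 0) (h6 : C₆ ≠ 0) {N : ℕ} (hN : 0 < N) :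
    ∃ l u : ℤ, (N : ℤ) ∣ l - 1 ∧ (N : ℤ) ∣ u ∧ IsCoprime l u ∧ hesseDisc C₄ C₆ l u ≠ 0 ∧
      (IsCoprime (hesseFour C₄ C₆ l u) (Δ * hesseDisc C₄ C₆ l u ^ 3) → ∀ r : ℚ, r ≠ 0 →
        (hesseFour C₄ C₆ l u : ℚ) ^ 3 * r ≠
          ((Δ * hesseDisc C₄ C₆ l u ^ 3 : ℤ) : ℚ) * (r ^ 2 + 10 * r + 5) ^ 3) := by
  classical
  -- constants
  obtain ⟨C, hC1, hC4, hC6⟩ : ∃ C : ℤ, 1 ≤ C ∧ |C₄| ≤ C ∧ |C₆| ≤ C :=
    ⟨max 1 (max |C₄| |C₆|), le_max_left _ _, (le_max_left _ _).trans (le_max_right _ _),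
      (le_max_right _ _).trans (le_max_right _ _)⟩
  obtain ⟨K₀, hK₀⟩ : ∃ k : ℕ, k = (22 * C ^ 3 * (2 * (N : ℤ)) ^ 4).toNat := ⟨_, rfl⟩
  have hK₀' : 22 * C ^ 3 * (2 * (N : ℤ)) ^ 4 ≤ (K₀ : ℤ) :=
    hK₀ ▸ Int.self_le_toNat _
  obtain ⟨K, hK⟩ : ∃ k : ℕ, k = 125 * Δ.natAbs := ⟨_, rfl⟩
  obtain ⟨M, hM⟩ : ∃ k : ℕ, k = 100 * (1 + K₀ + Δ.natAbs) := ⟨_, rfl⟩
  obtain ⟨B, hB⟩ : ∃ k : ℕ, k = (K + 1) * (M + 1) := ⟨_, rfl⟩
  obtain ⟨K₅, hK₅⟩ : ∃ k : ℕ, k = 4 * (11 * (2 * K + 1) ^ 2 * (2 * B + 1) ^ 2) + 4 := ⟨_, rfl⟩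
  obtain ⟨n, hn⟩ : ∃ k : ℕ, k = 5 * (K₅ + 1) + 3000 := ⟨_, rfl⟩
  have hn1 : 1 ≤ n := by omega
  obtain ⟨H, hH⟩ : ∃ k : ℕ, k = n ^ 3 := ⟨_, rfl⟩
  have hH1 : 1 ≤ H := hH ▸ Nat.one_le_pow _ _ hn1
  have hH3 : 3000 ≤ H := hH ▸ le_trans (by omega) (Nat.le_self_pow three_ne_zero n)
  obtain ⟨good, hgood⟩ : ∃ g : Finset (ℤ × ℤ), g = ((Icc 1 H ×ˢ Icc 1 H).filter
    fun v => Nat.Coprime (1 + N * v.1) (N * v.2)).image
      fun v => (((1 + N * v.1 : ℕ) : ℤ), ((N * v.2 : ℕ) : ℤ)) := ⟨_, rfl⟩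
  have hgood' : (H : ℚ) ^ 2 / 5 ≤ (good.card : ℚ) := by
    rw [hgood, card_image_of_injOn]
    · exact card_box_coprime hH3
    · intro v _ w _ he
      simp only [Prod.mk.injEq, Nat.cast_inj, add_right_inj, mul_eq_mul_left_iff, hN.ne',
        or_false] at he
      exact Prod.ext he.1 he.2
  have hprop : ∀ v ∈ good, (N : ℤ) ∣ v.1 - 1 ∧ (N : ℤ) ∣ v.2 ∧ 0 < v.2 ∧ IsCoprime v.1 v.2 ∧
      |v.1| ≤ 2 * N * H ∧ |v.2| ≤ 2 * N * H := by
    intro v hv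
    rw [hgood, mem_image] at hv
    obtain ⟨⟨i, j⟩, hij, rfl⟩ := hv
    simp only [mem_filter, mem_product, mem_Icc] at hij
    obtain ⟨⟨⟨hi1, hi2⟩, hj1, hj2⟩, hcop⟩ := hij
    refine ⟨⟨i, by push_cast; ring⟩, ⟨j, by push_cast; ring⟩, ?_, ?_, ?_, ?_⟩
    · show (0 : ℤ) < ((N * j : ℕ) : ℤ)
      exact_mod_cast Nat.mul_pos hN hj1
    · exact Nat.isCoprime_iff_coprime.mpr hcop
    all_goals rw [abs_of_nonneg (by positivity)]
    · have : N * i ≤ N * H := Nat.mul_le_mul_left N hi2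
      have h' : 1 ≤ N * H := Nat.mul_pos hN hH1
      show ((1 + N * i : ℕ) : ℤ) ≤ 2 * N * H
      exact_mod_cast (by linarith : 1 + N * i ≤ 2 * N * H)
    · have : N * j ≤ N * H := Nat.mul_le_mul_left N hj2
      show ((N * j : ℕ) : ℤ) ≤ 2 * N * H
      exact_mod_cast (by nlinarith : N * j ≤ 2 * N * H)
  -- the exceptional parameters
  let P : ℤ × ℤ → Prop := fun v => hesseDisc C₄ C₆ v.1 v.2 = 0 ∨
    ∃ a b z : ℤ, a ≠ 0 ∧ 0 < b ∧ IsCoprime a b ∧ z ≠ 0 ∧ |z| ≤ 5 ∧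
      a ^ 2 + 10 * a * b + 5 * b ^ 2 = z * hesseFour C₄ C₆ v.1 v.2 ∧
      a * b ^ 5 = z ^ 3 * (Δ * hesseDisc C₄ C₆ v.1 v.2 ^ 3)
  suffices hex : ∃ v ∈ good, ¬ P v by
    obtain ⟨v, hv, hP⟩ := hex
    obtain ⟨h1, h2, -, h4, -⟩ := hprop v hv
    refine ⟨v.1, v.2, h1, h2, h4, fun h => hP (Or.inl h),
      fun hcop r hr he => hP (Or.inr (exists_fiveParam_data hcop hr ?_))⟩
    rw [← he]
    exact congrArg (· ^ 3 * r) (map_hesseFour (Int.castRingHom ℚ) C₄ C₆ v.1 v.2)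
  by_contra hall
  push Not at hall
  -- the codes
  obtain ⟨box, hbox⟩ : ∃ g : Finset (ℤ × ℤ),
      g = Icc (-(K : ℤ)) K ×ˢ Icc (-((B : ℤ) * n ^ 2)) (B * n ^ 2) := ⟨_, rfl⟩
  obtain ⟨codes, hcodes⟩ : ∃ g : Finset (ℤ × ℤ × ℤ), g = (box.image fun v => v.1 * v.2 ^ 3) ×ˢ
      ((box.image fun v => v.2 ^ 3 / v.1) ×ˢ Icc (-5 : ℤ) 5) := ⟨_, rfl⟩
  let R : ℤ × ℤ → ℤ × ℤ × ℤ → Prop := fun v c =>
    c.1 ^ 2 + 10 * c.1 * c.2.1 + 5 * c.2.1 ^ 2 = c.2.2 * hesseFour C₄ C₆ v.1 v.2 ∧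
      c.1 * c.2.1 ^ 5 = c.2.2 ^ 3 * (Δ * hesseDisc C₄ C₆ v.1 v.2 ^ 3) ∧ c.2.2 ≠ 0
  have hcover : good ⊆ (good.filter fun v => hesseDisc C₄ C₆ v.1 v.2 = 0) ∪
      codes.biUnion fun c => good.filter fun v => hesseDisc C₄ C₆ v.1 v.2 ≠ 0 ∧ R v c := by
    intro v hv
    by_cases hd : hesseDisc C₄ C₆ v.1 v.2 = 0
    · exact mem_union_left _ (mem_filter.mpr ⟨hv, hd⟩)
    refine mem_union_right _ ?_
    obtain ⟨a, b, z, ha, hb, hab, hz, hz5, hQ, hP⟩ := (hall v hv).resolve_left hd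
    rw [mem_biUnion]
    refine ⟨(a, b, z), ?_, mem_filter.mpr ⟨hv, hd, hQ, hP, hz⟩⟩
    obtain ⟨-, -, -, -, hl, hu⟩ := hprop v hv
    obtain ⟨hF, hD⟩ := abs_hesse_le hC4 hC6 hC1 hl hu
    set h : ℤ := (H : ℤ) ^ 2 with hh
    have hFD : 22 * C ^ 3 * (2 * (N : ℤ) * H) ^ 4 ≤ K₀ * h ^ 2 := by
      calc 22 * C ^ 3 * (2 * (N : ℤ) * H) ^ 4
          = 22 * C ^ 3 * (2 * (N : ℤ)) ^ 4 * h ^ 2 := by rw [hh]; ring
        _ ≤ _ := mul_le_mul_of_nonneg_right hK₀' (sq_nonneg h)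
    obtain ⟨⟨m, s, hmK, hs, hms⟩, m', t, hmK', ht, hmt⟩ := fiveParam_shape hΔ hK hM hB
      (show h = ((n : ℤ) ^ 3) ^ 2 by rw [hh, hH]; push_cast; rfl) (hF.trans hFD) (hD.trans hFD)
      ha hb hab hz hz5 hQ hP
    simp only [hcodes, mem_product, mem_image]
    refine ⟨⟨(m, s), ?_, hms.symm⟩, ⟨(m', t), ?_, hmt⟩, mem_Icc.mpr (abs_le.mp hz5)⟩
    · simp only [hbox, mem_product, mem_Icc]; exact ⟨abs_le.mp hmK, abs_le.mp hs⟩
    · simp only [hbox, mem_product, mem_Icc]; exact ⟨abs_le.mp hmK', abs_le.mp ht⟩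
  have hzero : (good.filter fun v => hesseDisc C₄ C₆ v.1 v.2 = 0).card ≤ 4 * 1 := by
    refine card_fibre_le (C₄ := C₄) (A := 0) (B := 0) h6 fun v hv => ?_
    obtain ⟨hv, hd⟩ := mem_filter.mp hv
    exact ⟨(hprop v hv).2.2.1, (hprop v hv).2.2.2.1, fun h => absurd rfl h, hd⟩
  have hfib : ∀ c ∈ codes,
      (good.filter fun v => hesseDisc C₄ C₆ v.1 v.2 ≠ 0 ∧ R v c).card ≤ 4 := by
    intro c _
    rcases (good.filter fun v => hesseDisc C₄ C₆ v.1 v.2 ≠ 0 ∧ R v c).eq_empty_or_nonempty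
      with he | ⟨v₀, hv₀⟩
    · simp [he]
    obtain ⟨-, -, hQ₀, hP₀, hc⟩ := mem_filter.mp hv₀
    refine card_fibre_le (C₄ := C₄) (A := hesseFour C₄ C₆ v₀.1 v₀.2)
      (B := hesseDisc C₄ C₆ v₀.1 v₀.2) h6 fun v hv => ?_
    obtain ⟨hv, -, hQ, hP, -⟩ := mem_filter.mp hv
    refine ⟨(hprop v hv).2.2.1, (hprop v hv).2.2.2.1, fun _ => mul_left_cancel₀ hc (hQ.symm.trans hQ₀),
      (Odd.strictMono_pow (R := ℤ) (by decide : Odd 3)).injective ?_⟩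
    exact mul_left_cancel₀ hΔ (mul_left_cancel₀ (pow_ne_zero 3 hc) (hP.symm.trans hP₀))
  have hbox' : box.card ≤ (2 * K + 1) * ((2 * B + 1) * n ^ 2) := by
    rw [hbox, card_product, Int.card_Icc, Int.card_Icc]
    refine Nat.mul_le_mul (by omega) ?_
    have : ((B : ℤ) * (n : ℤ) ^ 2 + 1 - -((B : ℤ) * (n : ℤ) ^ 2)).toNat = 2 * (B * n ^ 2) + 1 := by
      rw [show (B : ℤ) * (n : ℤ) ^ 2 = ((B * n ^ 2 : ℕ) : ℤ) by push_cast; rfl]
      omega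
    rw [this]
    nlinarith [Nat.one_le_pow 2 n hn1]
  have hcodes' : codes.card ≤ 11 * ((2 * K + 1) * ((2 * B + 1) * n ^ 2)) ^ 2 := by
    rw [hcodes, card_product, card_product, Int.card_Icc, sq]
    calc _ ≤ box.card * (box.card * 11) :=
          Nat.mul_le_mul card_image_le (Nat.mul_le_mul card_image_le le_rfl)
      _ = 11 * (box.card * box.card) := by ring
      _ ≤ _ := Nat.mul_le_mul_left 11 (Nat.mul_le_mul hbox' hbox')
  have hle : good.card ≤ K₅ * n ^ 4 := by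
    refine (card_le_card hcover).trans ((card_union_le _ _).trans ?_)
    refine (Nat.add_le_add hzero (card_biUnion_le_card_mul _ _ 4 hfib)).trans ?_
    refine (Nat.add_le_add le_rfl (Nat.mul_le_mul_right 4 hcodes')).trans ?_
    rw [hK₅, add_mul]
    have : 1 ≤ n ^ 4 := Nat.one_le_pow _ _ hn1
    nlinarith
  have hle' : (good.card : ℚ) ≤ (K₅ : ℚ) * (n : ℚ) ^ 4 := by exact_mod_cast hle
  have hnn : (5 : ℚ) * (K₅ + 1) ≤ n := by rw [hn]; push_cast; linarith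
  have hHn : (H : ℚ) = (n : ℚ) ^ 3 := by rw [hH]; push_cast; rfl
  have hn0 : (0 : ℚ) < n := by exact_mod_cast hn1
  have hge : (n : ℚ) ^ 4 * ((K₅ : ℚ) + 1) ≤ (H : ℚ) ^ 2 / 5 := by
    rw [hHn]
    have : (n : ℚ) ≤ (n : ℚ) ^ 2 := le_self_pow₀ (by exact_mod_cast hn1) two_ne_zero
    nlinarith [pow_pos hn0 4]
  nlinarith [pow_pos hn0 4]

end Fermat.Agent.Extra.SwitchThree
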