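import Mathlib

/-!
# The twisted Hesse pencil in invariant coordinates

For invariants `(C₄, C₆)` the pencil of curves with the same `3`-torsion has invariants
`hesseFour`, `hesseSix` in the parameters `(l, u)`; its discriminant is a cube times the original
one. The roots of the quartic `hesseDisc C₄ C₆ · 1` correspond to the `3`-torsion abscissas.
-/

set_option autoImplicit false

namespace Fermat.Agent.Extra.SwitchThree

section Defs

variable {R : Type*} [CommRing R]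

/-- The `c₄` of the member `(l, u)`. -/
def hesseFour (C₄ C₆ l u : R) : R :=
  C₄ * l ^ 4 + 4 * C₆ * l ^ 3 * u + 6 * C₄ ^ 2 * l ^ 2 * u ^ 2 + 4 * C₄ * C₆ * l * u ^ 3
    - (3 * C₄ ^ 3 - 4 * C₆ ^ 2) * u ^ 4

/-- The `c₆` of the member `(l, u)`. -/
def hesseSix (C₄ C₆ l u : R) : R :=
  C₆ * l ^ 6 + 6 * C₄ ^ 2 * l ^ 5 * u + 15 * C₄ * C₆ * l ^ 4 * u ^ 2
    + 20 * C₆ ^ 2 * l ^ 3 * u ^ 3 + 15 * C₄ ^ 2 * C₆ * l ^ 2 * u ^ 4
    + 6 * (3 * C₄ ^ 4 - 2 * C₄ * C₆ ^ 2) * l * u ^ 5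
    + (9 * C₄ ^ 3 * C₆ - 8 * C₆ ^ 3) * u ^ 6

/-- The quartic whose cube is the ratio of discriminants. -/
def hesseDisc (C₄ C₆ l u : R) : R :=
  l ^ 4 - 6 * C₄ * l ^ 2 * u ^ 2 - 8 * C₆ * l * u ^ 3 - 3 * C₄ ^ 2 * u ^ 4

/-- The `3`-division quartic in the coordinate `θ = 12 x + b₂`. -/
def thetaQuartic (C₄ C₆ θ : R) : R := θ ^ 4 - 6 * C₄ * θ ^ 2 - 8 * C₆ * θ - 3 * C₄ ^ 2

/-- The abscissa on the member. -/
def hesseTheta (C₄ C₆ l u θ : R) : R :=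
  θ * l ^ 2 + (θ ^ 2 - 3 * C₄) * l * u + (θ ^ 3 - 6 * C₄ * θ - 6 * C₆) * u ^ 2

/-- The factor of the ordinates. -/
def hesseScale (C₄ C₆ l u θ : R) : R :=
  l ^ 3 + θ * l ^ 2 * u + (θ ^ 2 - 6 * C₄) * l * u ^ 2
    + (θ ^ 3 - 6 * C₄ * θ - 8 * C₆) * u ^ 3

theorem hesse_relation (C₄ C₆ l u : R) :
    hesseFour C₄ C₆ l u ^ 3 - hesseSix C₄ C₆ l u ^ 2
      = (C₄ ^ 3 - C₆ ^ 2) * hesseDisc C₄ C₆ l u ^ 3 := by
  simp only [hesseFour, hesseSix, hesseDisc]; ring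

theorem hesse_one_zero (C₄ C₆ : R) :
    hesseFour C₄ C₆ 1 0 = C₄ ∧ hesseSix C₄ C₆ 1 0 = C₆ ∧ hesseDisc C₄ C₆ 1 0 = 1 := by
  simp [hesseFour, hesseSix, hesseDisc]

theorem map_hesseFour {S : Type*} [CommRing S] (f : R →+* S) (C₄ C₆ l u : R) :
    f (hesseFour C₄ C₆ l u) = hesseFour (f C₄) (f C₆) (f l) (f u) := by
  simp [hesseFour, map_ofNat]

theorem map_hesseSix {S : Type*} [CommRing S] (f : R →+* S) (C₄ C₆ l u : R) :
    f (hesseSix C₄ C₆ l u) = hesseSix (f C₄) (f C₆) (f l) (f u) := by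
  simp [hesseSix, map_ofNat]

theorem map_hesseDisc {S : Type*} [CommRing S] (f : R →+* S) (C₄ C₆ l u : R) :
    f (hesseDisc C₄ C₆ l u) = hesseDisc (f C₄) (f C₆) (f l) (f u) := by
  simp [hesseDisc, map_ofNat]

theorem hesseScale_mul {C₄ C₆ θ : R} (hθ : thetaQuartic C₄ C₆ θ = 0) (l u : R) :
    hesseScale C₄ C₆ l u θ * (l - θ * u) = hesseDisc C₄ C₆ l u := by
  simp only [hesseScale, hesseDisc, thetaQuartic] at *
  linear_combination (-u ^ 4) * hθ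

/-- The image abscissa and ordinate lie on the member. -/
theorem hesseTheta_cubic {C₄ C₆ θ : R} (hθ : thetaQuartic C₄ C₆ θ = 0) (l u : R) :
    hesseTheta C₄ C₆ l u θ ^ 3 - 3 * hesseFour C₄ C₆ l u * hesseTheta C₄ C₆ l u θ
        - 2 * hesseSix C₄ C₆ l u
      = hesseScale C₄ C₆ l u θ ^ 2 * (θ ^ 3 - 3 * C₄ * θ - 2 * C₆) := by
  simp only [hesseTheta, hesseScale, hesseFour, hesseSix, thetaQuartic] at *
  linear_combination (21 * C₄ ^ 2 * l * u ^ 5 + 18 * C₄ ^ 2 * u ^ 6 * θ + 24 * C₄ * C₆ * u ^ 6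
    - 9 * C₄ * l ^ 3 * u ^ 3 - 21 * C₄ * l ^ 2 * u ^ 4 * θ - 9 * C₄ * l * u ^ 5 * θ ^ 2
    - 3 * C₄ * u ^ 6 * θ ^ 3 - 8 * C₆ * l ^ 2 * u ^ 4 - 8 * C₆ * l * u ^ 5 * θ + l ^ 5 * u
    + 3 * l ^ 4 * u ^ 2 * θ + 3 * l ^ 3 * u ^ 3 * θ ^ 2 + 3 * l ^ 2 * u ^ 4 * θ ^ 3
    + l * u ^ 5 * θ ^ 4) * hθ

end Defs

section Field

variable {K : Type*} [Field K]

/-- `hesseDisc` and `hesseFour` have no common zero besides the origin. -/
theorem eq_zero_of_hesseFour {C₄ C₆ l u : K} (h2 : (2 : K) ≠ 0) (h3 : (3 : K) ≠ 0)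
    (hd : C₄ ^ 3 ≠ C₆ ^ 2) (hF : hesseFour C₄ C₆ l u = 0) (hD : hesseDisc C₄ C₆ l u = 0) :
    l = 0 ∧ u = 0 := by
  have hu : u = 0 := by
    by_contra hu
    obtain ⟨θ, rfl⟩ : ∃ θ, l = θ * u := ⟨l / u, by field_simp⟩
    have hq : thetaQuartic C₄ C₆ θ = 0 := by
      refine mul_left_cancel₀ (pow_ne_zero 4 hu) ?_
      simp only [hesseDisc, thetaQuartic] at *
      linear_combination hD
    have hG : C₆ * θ ^ 3 + 3 * C₄ ^ 2 * θ ^ 2 + 3 * C₄ * C₆ * θ + C₆ ^ 2 = 0 := by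
      refine mul_left_cancel₀ (mul_ne_zero
        (show (4 : K) ≠ 0 by rw [show (4 : K) = 2 * 2 by norm_num]; exact mul_ne_zero h2 h2)
        (pow_ne_zero 4 hu)) ?_
      simp only [hesseFour, hesseDisc] at *
      linear_combination hF - C₄ * hD
    have hH : C₄ ^ 2 * θ ^ 3 + 3 * C₄ * C₆ * θ ^ 2 + 3 * C₆ ^ 2 * θ + C₄ ^ 2 * C₆ = 0 := by
      refine mul_left_cancel₀ h3 ?_
      simp only [thetaQuartic] at hq
      linear_combination θ * hG - C₆ * hq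
    have hfac : θ * (C₄ * θ + C₆) = 0 := by
      refine mul_left_cancel₀ (mul_ne_zero h3 (sub_ne_zero.mpr hd)) ?_
      linear_combination C₄ ^ 2 * hG - C₆ * hH
    have hθ : θ = 0 := by
      rcases mul_eq_zero.mp hfac with h | h
      · exact h
      · have h6 : C₆ ^ 2 * (C₄ ^ 3 - C₆ ^ 2) = 0 := by
          obtain rfl : C₆ = -(C₄ * θ) := by linear_combination h
          linear_combination C₄ ^ 3 * hG
        rw [mul_eq_zero, or_iff_left (sub_ne_zero.mpr hd), pow_eq_zero_iff two_ne_zero] at h6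
        rw [h6, add_zero] at h
        rcases mul_eq_zero.mp h with h4 | h4
        · exact absurd (by rw [h4, h6]; ring) hd
        · exact h4
    subst hθ
    apply hd
    simp only [thetaQuartic] at hq
    have h6 : C₆ ^ 2 = 0 := by linear_combination hG
    have h4 : C₄ ^ 2 = 0 := mul_left_cancel₀ h3 (by linear_combination -hq)
    linear_combination C₄ * h4 - h6
  subst hu
  refine ⟨?_, rfl⟩
  simpa [hesseDisc] using hD

end Field

section Line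

variable {K : Type*} [Field K] [CharZero K]

/-- The image line: slope and intercept in the coordinate `θ`. -/
def hesseIntercept (m n l u : K) : K :=
  l ^ 3 * n + 186624 * l ^ 2 * u * m ^ 5 + 864 * l ^ 2 * u * m ^ 2 * n
    + 80621568 * l * u ^ 2 * m ^ 7 + 559872 * l * u ^ 2 * m ^ 4 * n - 432 * l * u ^ 2 * m * n ^ 2
    + 11609505792 * u ^ 3 * m ^ 9 + 80621568 * u ^ 3 * m ^ 6 * n - 144 * u ^ 3 * n ^ 3

/-- A `3`-torsion line goes to a line, pointwise. -/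
theorem hesse_line {C₄ C₆ m n θ : K} (h₄ : 3 * C₄ = (432 * m ^ 2) ^ 2 + 864 * m * n)
    (h₆ : 6 * C₆ = 432 * n ^ 2 + 432 * m ^ 2 * ((432 * m ^ 2) ^ 2 + 2 * (864 * m * n)))
    (hθ : θ ^ 3 - 432 * m ^ 2 * θ ^ 2 - (3 * C₄ + 864 * m * n) * θ
      - (2 * C₆ + 432 * n ^ 2) = 0) (l u : K) :
    hesseScale C₄ C₆ l u θ * (m * θ + n)
      = (m * l + n * u) * hesseTheta C₄ C₆ l u θ + hesseIntercept m n l u := by
  obtain rfl : C₄ = ((432 * m ^ 2) ^ 2 + 864 * m * n) / 3 := by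
    rw [← h₄]; ring
  obtain rfl : C₆ = (432 * n ^ 2 + 432 * m ^ 2 * ((432 * m ^ 2) ^ 2 + 2 * (864 * m * n))) / 6 := by
    rw [← h₆]; ring
  simp only [hesseScale, hesseTheta, hesseIntercept]
  linear_combination (u ^ 3 * θ * m + 432 * u ^ 3 * m ^ 3) * hθ

end Line

end Fermat.Agent.Extra.SwitchThree
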