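import Mathlib
import Fermat.Prelude.Def_FLTPrelim_ModularRep
import Fermat.Agent.Switch35.Model
import Fermat.Agent.Extra.SwitchThree.Hesse

/-!
# Semistable integral models of the members congruent to `(1, 0)`
-/

set_option autoImplicit false

namespace Fermat.Agent.Extra.SwitchThree

open WeierstrassCurve
open Fermat.Agent.Switch35 (shiftModel shiftModel_c₄ shiftModel_c₆ shiftModel_congr)

/-- The modulus absorbing the bad primes. -/
def progMod (W : WeierstrassCurve ℤ) : ℕ := 1728 * (6 * W.Δ.natAbs)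

theorem progMod_pos {W : WeierstrassCurve ℤ} (hΔ : W.Δ ≠ 0) : 0 < progMod W :=
  Nat.mul_pos (by norm_num) (Nat.mul_pos (by norm_num) (Int.natAbs_pos.mpr hΔ))

/-- For `(l, u) ≡ (1, 0)` and coprime, the member has a semistable model with the same
`a₁, a₂, a₃`. -/
theorem exists_semistable_member (W : WeierstrassCurve ℤ)
    (hW : W.IsSemistableModel) {l u : ℤ} (hl : (progMod W : ℤ) ∣ l - 1)
    (hu : (progMod W : ℤ) ∣ u) (hcop : IsCoprime l u) :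
    ∃ W' : WeierstrassCurve ℤ, W'.IsSemistableModel ∧ W'.a₁ = W.a₁ ∧ W'.a₂ = W.a₂ ∧
      W'.a₃ = W.a₃ ∧ W'.c₄ = hesseFour W.c₄ W.c₆ l u ∧ W'.c₆ = hesseSix W.c₄ W.c₆ l u ∧
      W'.Δ = W.Δ * hesseDisc W.c₄ W.c₆ l u ^ 3 := by
  have hl' := (ZMod.intCast_zmod_eq_zero_iff_dvd _ (progMod W)).mpr hl
  have hu' := (ZMod.intCast_zmod_eq_zero_iff_dvd _ (progMod W)).mpr hu
  rw [Int.cast_sub, Int.cast_one, sub_eq_zero] at hl'
  obtain ⟨e4, e6, -⟩ := hesse_one_zero (W.c₄ : ZMod (progMod W)) (W.c₆ : ZMod (progMod W))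
  obtain ⟨t, ht⟩ : (progMod W : ℤ) ∣ hesseFour W.c₄ W.c₆ l u - W.c₄ := by
    rw [← ZMod.intCast_zmod_eq_zero_iff_dvd, Int.cast_sub, sub_eq_zero,
      ← eq_intCast (Int.castRingHom _), map_hesseFour]
    simp [hl', hu', e4]
  obtain ⟨t', ht'⟩ : (progMod W : ℤ) ∣ hesseSix W.c₄ W.c₆ l u - W.c₆ := by
    rw [← ZMod.intCast_zmod_eq_zero_iff_dvd, Int.cast_sub, sub_eq_zero,
      ← eq_intCast (Int.castRingHom _), map_hesseSix]
    simp [hl', hu', e6]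
  set M : ℤ := ((6 * W.Δ.natAbs : ℕ) : ℤ) with hM
  have hP : (progMod W : ℤ) = 1728 * M := by rw [hM, progMod]; push_cast; ring
  rw [hP] at ht ht'
  set W' := shiftModel W (M * t) (M * t') with hW'
  have f4 : W'.c₄ = hesseFour W.c₄ W.c₆ l u := by
    rw [hW', shiftModel_c₄]; linear_combination -ht
  have f6 : W'.c₆ = hesseSix W.c₄ W.c₆ l u := by
    rw [hW', shiftModel_c₆]; linear_combination -ht'
  have fΔ : W'.Δ = W.Δ * hesseDisc W.c₄ W.c₆ l u ^ 3 := by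
    apply mul_left_cancel₀ (show (1728 : ℤ) ≠ 0 by norm_num)
    rw [← mul_assoc, W'.c_relation, W.c_relation, f4, f6, hesse_relation]
  refine ⟨W', fun q hq hqΔ hq4 => ?_, rfl, rfl, rfl, f4, f6, fΔ⟩
  by_cases hqM : (q : ℤ) ∣ M
  · obtain ⟨i1, i2⟩ := shiftModel_congr W (hqM.mul_right t) (hqM.mul_right t')
    exact hW q hq (i1.mp hqΔ) (i2.mp hq4)
  have : Fact q.Prime := ⟨hq⟩
  let φ := Int.castRingHom (ZMod q)
  have hno : ∀ m : ℕ, m ∣ 6 → q ≠ m := fun m hm e => hqM (by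
    rw [hM]; exact Int.natCast_dvd_natCast.mpr ((e ▸ hm).mul_right _))
  have z : ∀ x : ℤ, φ x = 0 ↔ (q : ℤ) ∣ x := fun x => ZMod.intCast_zmod_eq_zero_iff_dvd x q
  have hΔq : φ W.Δ ≠ 0 := fun h => hqM (by
    rw [hM, Nat.cast_mul]
    exact dvd_mul_of_dvd_right (Int.natCast_dvd_natCast.mpr (Int.natCast_dvd.mp ((z _).mp h))) _)
  have h2 : (2 : ZMod q) ≠ 0 := fun h => hno 2 (by norm_num) ((Nat.prime_dvd_prime_iff_eq hq
    Nat.prime_two).mp ((ZMod.natCast_eq_zero_iff 2 q).mp (by exact_mod_cast h)))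
  have h3 : (3 : ZMod q) ≠ 0 := fun h => hno 3 (by norm_num) ((Nat.prime_dvd_prime_iff_eq hq
    Nat.prime_three).mp ((ZMod.natCast_eq_zero_iff 3 q).mp (by exact_mod_cast h)))
  have hd : φ W.c₄ ^ 3 ≠ φ W.c₆ ^ 2 := by
    rw [Ne, ← sub_eq_zero, ← map_pow, ← map_pow, ← map_sub, ← W.c_relation, map_mul, map_ofNat,
      mul_eq_zero, or_iff_left hΔq, show (1728 : ZMod q) = 2 ^ 6 * 3 ^ 3 by norm_num]
    exact mul_ne_zero (pow_ne_zero 6 h2) (pow_ne_zero 3 h3)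
  have hF : hesseFour (φ W.c₄) (φ W.c₆) (φ l) (φ u) = 0 := by
    rw [← map_hesseFour, z, ← f4]; exact hq4
  have hD : hesseDisc (φ W.c₄) (φ W.c₆) (φ l) (φ u) = 0 := by
    rw [← map_hesseDisc, z]
    rw [fΔ] at hqΔ
    exact (Nat.prime_iff_prime_int.mp hq).dvd_of_dvd_pow
      (((Nat.prime_iff_prime_int.mp hq).dvd_or_dvd hqΔ).resolve_left fun h => hΔq ((z _).mpr h))
  obtain ⟨e1, e2⟩ := eq_zero_of_hesseFour h2 h3 hd hF hD
  exact (Nat.prime_iff_prime_int.mp hq).not_isUnit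
    (hcop.isUnit_of_dvd' ((z _).mp e1) ((z _).mp e2))

end Fermat.Agent.Extra.SwitchThree
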