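import Mathlib
import Fermat.Agent.Switch35.Pairs
import Fermat.Agent.Switch35.Three
import Fermat.Agent.ECTorsion.Galois
import Fermat.Agent.Extra.SwitchThree.Hesse

/-!
# The pencil preserves the `3`-torsion module

A `3`-torsion point with coordinates `(θ, Y) = (12 x + b₂, 2 y + a₁ x + a₃)` is sent to
`(hesseTheta θ, hesseScale θ · Y)`; lines go to lines, so the map is additive.
-/

set_option autoImplicit false

noncomputable section

namespace Fermat.Agent.Extra.SwitchThree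

open WeierstrassCurve
open Fermat.Agent.Switch35 (modCurve modCurve_c₄ modCurve_c₆ modCurve_b₂ modCurve_Δ)

variable {K : Type*} [Field K] [CharZero K]

/-- The coordinate `θ`. -/
def thetaOf (W : WeierstrassCurve K) (x : K) : K := 12 * x + W.b₂

/-- The completed ordinate. -/
def ordOf (W : WeierstrassCurve K) (x y : K) : K := 2 * y + W.a₁ * x + W.a₃

omit [CharZero K] in
theorem ordOf_sq {W : WeierstrassCurve K} {x y : K} (h : W.toAffine.Nonsingular x y) :
    432 * ordOf W x y ^ 2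
      = thetaOf W x ^ 3 - 3 * W.c₄ * thetaOf W x - 2 * W.c₆ := by
  have heq := (Affine.equation_iff _ _).mp h.left
  simp only [ordOf, thetaOf, c₄, c₆, b₂, b₄, b₆]
  linear_combination 1728 * heq

variable [DecidableEq K] in
theorem thetaQuartic_of_torsion {W : WeierstrassCurve K} {x y : K}
    {h : W.toAffine.Nonsingular x y} (h3 : (3 : ℕ) • Affine.Point.some x y h = 0) :
    thetaQuartic W.c₄ W.c₆ (thetaOf W x) = 0 := by
  have e := Switch35.threeQuartic_of_three_torsion h3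
  simp only [Switch35.threeQuartic, Switch35.threeCoord] at e
  simp only [thetaQuartic, thetaOf]
  linear_combination (1 / 81 : K) * e

/-- The member `(l, u)` of the pencil. -/
def hesseCurve (W : WeierstrassCurve K) (l u : K) : WeierstrassCurve K :=
  modCurve W (hesseFour W.c₄ W.c₆ l u) (hesseSix W.c₄ W.c₆ l u)

theorem hesseDisc_ne_zero {W : WeierstrassCurve K} {l u : K}
    (hΔ' : (hesseCurve W l u).Δ ≠ 0) : hesseDisc W.c₄ W.c₆ l u ≠ 0 := by
  intro h
  apply hΔ'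
  have e := modCurve_Δ W (hesseFour W.c₄ W.c₆ l u) (hesseSix W.c₄ W.c₆ l u)
  rw [hesse_relation, h, zero_pow three_ne_zero, mul_zero, mul_eq_zero] at e
  exact e.resolve_left (by norm_num)

/-- The image abscissa. -/
def hesseX (W : WeierstrassCurve K) (l u x : K) : K :=
  (hesseTheta W.c₄ W.c₆ l u (thetaOf W x) - W.b₂) / 12

/-- The image ordinate. -/
def hesseY (W : WeierstrassCurve K) (l u x y : K) : K :=
  (hesseScale W.c₄ W.c₆ l u (thetaOf W x) * ordOf W x y - W.a₁ * hesseX W l u x - W.a₃) / 2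

theorem thetaOf_hesseX (W : WeierstrassCurve K) (l u x : K) :
    thetaOf (hesseCurve W l u) (hesseX W l u x) = hesseTheta W.c₄ W.c₆ l u (thetaOf W x) := by
  rw [thetaOf, hesseCurve, modCurve_b₂, hesseX]; ring

theorem ordOf_hesseY (W : WeierstrassCurve K) (l u x y : K) :
    ordOf (hesseCurve W l u) (hesseX W l u x) (hesseY W l u x y)
      = hesseScale W.c₄ W.c₆ l u (thetaOf W x) * ordOf W x y := by
  show 2 * hesseY W l u x y + W.a₁ * hesseX W l u x + W.a₃ = _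
  rw [hesseY]; ring

theorem nonsingular_hesse {W : WeierstrassCurve K} {l u x y : K}
    (hΔ' : (hesseCurve W l u).Δ ≠ 0) (h : W.toAffine.Nonsingular x y)
    (hq : thetaQuartic W.c₄ W.c₆ (thetaOf W x) = 0) :
    (hesseCurve W l u).toAffine.Nonsingular (hesseX W l u x) (hesseY W l u x y) := by
  refine (Affine.equation_iff_nonsingular_of_Δ_ne_zero hΔ').mp ?_
  rw [Affine.equation_iff]
  have key := hesseTheta_cubic hq l u
  rw [← ordOf_sq h] at key
  have e1 := thetaOf_hesseX W l u x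
  have e2 := ordOf_hesseY W l u x y
  rw [show hesseFour W.c₄ W.c₆ l u = (hesseCurve W l u).c₄ from (modCurve_c₄ _ _ _).symm,
    show hesseSix W.c₄ W.c₆ l u = (hesseCurve W l u).c₆ from (modCurve_c₆ _ _ _).symm,
    ← e1, show hesseScale W.c₄ W.c₆ l u (thetaOf W x) ^ 2 * (432 * ordOf W x y ^ 2)
      = 432 * ordOf (hesseCurve W l u) (hesseX W l u x) (hesseY W l u x y) ^ 2 by
        rw [e2]; ring] at key
  generalize hesseX W l u x = X at key ⊢
  generalize hesseY W l u x y = Y at key ⊢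
  generalize hesseCurve W l u = E at key ⊢
  simp only [ordOf, thetaOf, c₄, c₆, b₂, b₄, b₆] at key
  linear_combination (-1 / 1728 : K) * key

open Classical in
/-- The map on points; only used on `3`-torsion. -/
def hessePoint {W : WeierstrassCurve K} {l u : K} (hΔ' : (hesseCurve W l u).Δ ≠ 0) :
    W.toAffine.Point → (hesseCurve W l u).toAffine.Point
  | .zero => 0
  | .some x y h =>
    if hq : thetaQuartic W.c₄ W.c₆ (thetaOf W x) = 0 then
      .some (hesseX W l u x) (hesseY W l u x y) (nonsingular_hesse hΔ' h hq)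
    else 0

variable {W : WeierstrassCurve K} {l u : K} (hΔ' : (hesseCurve W l u).Δ ≠ 0)

theorem hessePoint_zero : hessePoint hΔ' (0 : W.toAffine.Point) = 0 := rfl

variable [DecidableEq K]

theorem hessePoint_some {x y : K} {h : W.toAffine.Nonsingular x y}
    (h3 : (3 : ℕ) • Affine.Point.some x y h = 0) :
    hessePoint hΔ' (.some x y h) = .some (hesseX W l u x) (hesseY W l u x y)
      (nonsingular_hesse hΔ' h (thetaQuartic_of_torsion h3)) := by
  rw [hessePoint, dif_pos (thetaQuartic_of_torsion h3)]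

theorem hessePoint_ne_zero {P : W.toAffine.Point} (h3 : (3 : ℕ) • P = 0) (hP : P ≠ 0) :
    hessePoint hΔ' P ≠ 0 := by
  rcases P with - | ⟨x, y, h⟩
  · exact absurd rfl hP
  · rw [hessePoint_some hΔ' h3]; exact Affine.Point.some_ne_zero _

theorem hessePoint_neg {P : W.toAffine.Point} (h3 : (3 : ℕ) • P = 0) :
    hessePoint hΔ' (-P) = -hessePoint hΔ' P := by
  rcases P with - | ⟨x, y, h⟩
  · simp [← Affine.Point.zero_def, hessePoint_zero]
  · have h3' : (3 : ℕ) • -Affine.Point.some x y h = 0 := by rw [neg_nsmul, h3, neg_zero]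
    rw [Affine.Point.neg_some] at h3' ⊢
    rw [hessePoint_some hΔ' h3', hessePoint_some hΔ' h3, Affine.Point.neg_some]
    simp only [Affine.Point.some.injEq, true_and]
    simp only [hesseY, hesseX, ordOf, Affine.negY, hesseCurve, modCurve]
    ring

/-- Addition of two points with distinct abscissas in the coordinates `(θ, Y)`. -/
theorem add_eq_some_iff {E : WeierstrassCurve K} {x₁ y₁ x₂ y₂ x₃ y₃ m n : K}
    {h₁ : E.toAffine.Nonsingular x₁ y₁} {h₂ : E.toAffine.Nonsingular x₂ y₂}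
    {h₃ : E.toAffine.Nonsingular x₃ y₃} (hx : x₁ ≠ x₂)
    (e₁ : ordOf E x₁ y₁ = m * thetaOf E x₁ + n) (e₂ : ordOf E x₂ y₂ = m * thetaOf E x₂ + n) :
    Affine.Point.some x₁ y₁ h₁ + Affine.Point.some x₂ y₂ h₂ = Affine.Point.some x₃ y₃ h₃ ↔
      thetaOf E x₃ = 432 * m ^ 2 - thetaOf E x₁ - thetaOf E x₂ ∧
        ordOf E x₃ y₃ = -(m * thetaOf E x₃ + n) := by
  have hl : E.toAffine.slope x₁ x₂ y₁ y₂ = (12 * m - E.a₁) / 2 := by
    rw [Affine.slope_of_X_ne hx, div_eq_iff (sub_ne_zero.mpr hx)]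
    simp only [ordOf, thetaOf] at e₁ e₂
    linear_combination (1 / 2 : K) * e₁ - (1 / 2 : K) * e₂
  rw [Affine.Point.add_of_X_ne hx, Affine.Point.some.injEq, hl]
  simp only [Affine.addY, Affine.negAddY, Affine.addX, Affine.negY]
  simp only [ordOf, thetaOf, b₂] at e₁ e₂ ⊢
  constructor
  · rintro ⟨hx₃, hy₃⟩
    constructor
    · linear_combination (-12 : K) * hx₃
    · subst hy₃
      rw [hx₃]
      linear_combination (-1 : K) * e₁
  · rintro ⟨hθ, hord⟩
    have hx₃ : ((12 * m - E.a₁) / 2) ^ 2 + E.a₁ * ((12 * m - E.a₁) / 2) - E.a₂ - x₁ - x₂ = x₃ := by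
      linear_combination (-1 / 12 : K) * hθ
    refine ⟨hx₃, ?_⟩
    rw [hx₃]
    linear_combination (-1 / 2 : K) * hord - (1 / 2 : K) * e₁

omit [CharZero K] [DecidableEq K] in
theorem quadratic_coeff_eq_zero {a b c p q r : K} (hpq : p ≠ q) (hpr : p ≠ r) (hqr : q ≠ r)
    (hp : a * p ^ 2 + b * p + c = 0) (hq : a * q ^ 2 + b * q + c = 0)
    (hr : a * r ^ 2 + b * r + c = 0) : a = 0 ∧ b = 0 := by
  have h1 : a * (p + q) + b = 0 := mul_left_cancel₀ (sub_ne_zero.mpr hpq)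
    (by linear_combination hp - hq)
  have h2 : a * (p + r) + b = 0 := mul_left_cancel₀ (sub_ne_zero.mpr hpr)
    (by linear_combination hp - hr)
  have ha : a = 0 := mul_left_cancel₀ (sub_ne_zero.mpr hqr) (by linear_combination h1 - h2)
  subst ha
  exact ⟨rfl, by linear_combination h1⟩

omit [CharZero K] [DecidableEq K] in
/-- Distinct roots have distinct images. -/
theorem hesseTheta_injective {C₄ C₆ θ η : K} (hd : hesseDisc C₄ C₆ l u ≠ 0)
    (hθ : thetaQuartic C₄ C₆ θ = 0) (hη : thetaQuartic C₄ C₆ η = 0) (hne : θ ≠ η) :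
    hesseTheta C₄ C₆ l u θ ≠ hesseTheta C₄ C₆ l u η := by
  have hdiv : θ ^ 3 + θ ^ 2 * η + θ * η ^ 2 + η ^ 3 - 6 * C₄ * (θ + η) - 8 * C₆ = 0 := by
    apply mul_left_cancel₀ (sub_ne_zero.mpr hne)
    simp only [thetaQuartic] at hθ hη
    linear_combination hθ - hη
  intro he
  apply hd
  have hB : l ^ 2 + (θ + η) * l * u + (θ ^ 2 + θ * η + η ^ 2 - 6 * C₄) * u ^ 2 = 0 := by
    apply mul_left_cancel₀ (sub_ne_zero.mpr hne)
    simp only [hesseTheta] at he
    linear_combination he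
  simp only [thetaQuartic] at hθ
  simp only [hesseDisc]
  linear_combination (l - θ * u) * (l - η * u) * hB
    + (l * u ^ 3 - θ * u ^ 4) * hdiv + u ^ 4 * hθ

theorem hessePoint_add_core {P Q : W.toAffine.Point} (hP3 : (3 : ℕ) • P = 0)
    (hQ3 : (3 : ℕ) • Q = 0) (hP : P ≠ 0) (hQ : Q ≠ 0) (hPQ : P ≠ Q) (hPQ' : P ≠ -Q) :
    hessePoint hΔ' (P + Q) = hessePoint hΔ' P + hessePoint hΔ' Q := by
  obtain ⟨R, hR⟩ : ∃ R, P + Q = R := ⟨_, rfl⟩
  have hR3 : (3 : ℕ) • R = 0 := by rw [← hR, nsmul_add, hP3, hQ3, add_zero]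
  have hR0 : R ≠ 0 := fun h => hPQ' (add_eq_zero_iff_eq_neg.mp (hR.trans h))
  have hRP : R ≠ P := fun h => hQ (by rwa [h, add_eq_left] at hR)
  have hRQ : R ≠ Q := fun h => hP (by rwa [h, add_eq_right] at hR)
  have hP2 : P + P = -P := by rw [← add_eq_zero_iff_eq_neg, ← hP3]; abel
  have hQ2 : Q + Q = -Q := by rw [← add_eq_zero_iff_eq_neg, ← hQ3]; abel
  have hRP' : R ≠ -P := fun h => hPQ ((add_left_cancel (hR.trans (h.trans hP2.symm))).symm)
  have hRQ' : R ≠ -Q := fun h => hPQ (add_right_cancel (hR.trans (h.trans hQ2.symm)))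
  rw [hR]
  rcases P with - | ⟨x₁, y₁, h₁⟩
  · exact absurd rfl hP
  rcases Q with - | ⟨x₂, y₂, h₂⟩
  · exact absurd rfl hQ
  rcases R with - | ⟨x₃, y₃, h₃⟩
  · exact absurd rfl hR0
  have hx : ∀ {a b a' b' : K} {g : W.toAffine.Nonsingular a b} {g' : W.toAffine.Nonsingular a' b'},
      Affine.Point.some a b g ≠ Affine.Point.some a' b' g' →
      Affine.Point.some a b g ≠ -Affine.Point.some a' b' g' → a ≠ a' := fun h h' e =>
    ((Affine.Point.X_eq_iff).mp e).elim h h'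
  have x12 : x₁ ≠ x₂ := hx hPQ hPQ'
  have x31 : x₃ ≠ x₁ := hx hRP hRP'
  have x32 : x₃ ≠ x₂ := hx hRQ hRQ'
  have tinj : ∀ {a b : K}, a ≠ b → thetaOf W a ≠ thetaOf W b := fun h e => h (by
    simp only [thetaOf] at e; linear_combination (1 / 12 : K) * e)
  have t12 := tinj x12
  have t31 := tinj x31
  have t32 := tinj x32
  -- the line through the three points
  set θ₁ := thetaOf W x₁ with hθ₁
  set θ₂ := thetaOf W x₂ with hθ₂
  obtain ⟨m, hm⟩ : ∃ m, (ordOf W x₁ y₁ - ordOf W x₂ y₂) / (θ₁ - θ₂) = m := ⟨_, rfl⟩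
  rw [div_eq_iff (sub_ne_zero.mpr t12)] at hm
  obtain ⟨n, hn⟩ : ∃ n, ordOf W x₁ y₁ - m * θ₁ = n := ⟨_, rfl⟩
  have e₁ : ordOf W x₁ y₁ = m * θ₁ + n := by rw [← hn]; ring
  have e₂ : ordOf W x₂ y₂ = m * θ₂ + n := by rw [← hn]; linear_combination -hm
  obtain ⟨-, e₃⟩ := (add_eq_some_iff x12 e₁ e₂).mp hR
  set θ₃ := thetaOf W x₃ with hθ₃
  have q₁ := thetaQuartic_of_torsion hP3
  have q₂ := thetaQuartic_of_torsion hQ3
  have q₃ := thetaQuartic_of_torsion hR3
  rw [← hθ₁] at q₁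
  rw [← hθ₂] at q₂
  rw [← hθ₃] at q₃
  have L₁ : θ₁ ^ 3 - 432 * m ^ 2 * θ₁ ^ 2 - (3 * W.c₄ + 864 * m * n) * θ₁
      - (2 * W.c₆ + 432 * n ^ 2) = 0 := by
    have h := ordOf_sq h₁
    rw [e₁, ← hθ₁] at h
    linear_combination -h
  have L₂ : θ₂ ^ 3 - 432 * m ^ 2 * θ₂ ^ 2 - (3 * W.c₄ + 864 * m * n) * θ₂
      - (2 * W.c₆ + 432 * n ^ 2) = 0 := by
    have h := ordOf_sq h₂
    rw [e₂, ← hθ₂] at h
    linear_combination -h
  have L₃ : θ₃ ^ 3 - 432 * m ^ 2 * θ₃ ^ 2 - (3 * W.c₄ + 864 * m * n) * θ₃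
      - (2 * W.c₆ + 432 * n ^ 2) = 0 := by
    have h := ordOf_sq h₃
    rw [e₃, ← hθ₃] at h
    linear_combination -h
  obtain ⟨g2, g1⟩ := quadratic_coeff_eq_zero
    (a := -6 * W.c₄ + (3 * W.c₄ + 864 * m * n) + (432 * m ^ 2) ^ 2)
    (b := -8 * W.c₆ + (2 * W.c₆ + 432 * n ^ 2) + 432 * m ^ 2 * (3 * W.c₄ + 864 * m * n))
    (c := -3 * W.c₄ ^ 2 + 432 * m ^ 2 * (2 * W.c₆ + 432 * n ^ 2)) t12 t31.symm t32.symm
    (by simp only [thetaQuartic] at q₁; linear_combination q₁ - (θ₁ + 432 * m ^ 2) * L₁)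
    (by simp only [thetaQuartic] at q₂; linear_combination q₂ - (θ₂ + 432 * m ^ 2) * L₂)
    (by simp only [thetaQuartic] at q₃; linear_combination q₃ - (θ₃ + 432 * m ^ 2) * L₃)
  have h₄ : 3 * W.c₄ = (432 * m ^ 2) ^ 2 + 864 * m * n := by linear_combination -g2
  have h₆ : 6 * W.c₆ = 432 * n ^ 2 + 432 * m ^ 2 * ((432 * m ^ 2) ^ 2 + 2 * (864 * m * n)) := by
    linear_combination -g1 + 432 * m ^ 2 * h₄
  -- the images
  rw [hessePoint_some hΔ' hP3, hessePoint_some hΔ' hQ3, hessePoint_some hΔ' hR3, eq_comm]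
  have hd := hesseDisc_ne_zero hΔ'
  have T12 := hesseTheta_injective (l := l) (u := u) hd q₁ q₂ t12
  have T31 := hesseTheta_injective (l := l) (u := u) hd q₃ q₁ t31
  have T32 := hesseTheta_injective (l := l) (u := u) hd q₃ q₂ t32
  have X12 : hesseX W l u x₁ ≠ hesseX W l u x₂ := fun e => T12 (by
    simp only [hesseX, ← hθ₁, ← hθ₂] at e; linear_combination 12 * e)
  set m' := m * l + n * u with hm'
  set n' := hesseIntercept m n l u with hn'
  have i₁ : ordOf (hesseCurve W l u) (hesseX W l u x₁) (hesseY W l u x₁ y₁) =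
      m' * thetaOf (hesseCurve W l u) (hesseX W l u x₁) + n' := by
    rw [ordOf_hesseY, thetaOf_hesseX, ← hθ₁, e₁, hesse_line h₄ h₆ L₁]
  have i₂ : ordOf (hesseCurve W l u) (hesseX W l u x₂) (hesseY W l u x₂ y₂) =
      m' * thetaOf (hesseCurve W l u) (hesseX W l u x₂) + n' := by
    rw [ordOf_hesseY, thetaOf_hesseX, ← hθ₂, e₂, hesse_line h₄ h₆ L₂]
  have i₃ : ordOf (hesseCurve W l u) (hesseX W l u x₃) (hesseY W l u x₃ y₃) =
      -(m' * thetaOf (hesseCurve W l u) (hesseX W l u x₃) + n') := by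
    rw [ordOf_hesseY, thetaOf_hesseX, ← hθ₃, e₃, mul_neg, hesse_line h₄ h₆ L₃]
  refine (add_eq_some_iff X12 i₁ i₂).mpr ⟨?_, i₃⟩
  have c₁ := ordOf_sq (nonsingular_hesse hΔ' h₁ q₁)
  have c₂ := ordOf_sq (nonsingular_hesse hΔ' h₂ q₂)
  have c₃ := ordOf_sq (nonsingular_hesse hΔ' h₃ q₃)
  rw [i₁] at c₁
  rw [i₂] at c₂
  rw [i₃] at c₃
  simp only [thetaOf_hesseX, ← hθ₁, ← hθ₂, ← hθ₃] at c₁ c₂ c₃ ⊢
  generalize hesseTheta W.c₄ W.c₆ l u θ₁ = t₁ at *
  generalize hesseTheta W.c₄ W.c₆ l u θ₂ = t₂ at *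
  generalize hesseTheta W.c₄ W.c₆ l u θ₃ = t₃ at *
  generalize (hesseCurve W l u).c₄ = A₄ at *
  generalize (hesseCurve W l u).c₆ = A₆ at *
  have u12 : t₁ ^ 2 + t₁ * t₂ + t₂ ^ 2 - 432 * m' ^ 2 * (t₁ + t₂) - (3 * A₄ + 864 * m' * n') = 0 :=
    mul_left_cancel₀ (sub_ne_zero.mpr T12) (by linear_combination c₂ - c₁)
  have u31 : t₃ ^ 2 + t₃ * t₁ + t₁ ^ 2 - 432 * m' ^ 2 * (t₃ + t₁) - (3 * A₄ + 864 * m' * n') = 0 :=
    mul_left_cancel₀ (sub_ne_zero.mpr T31) (by linear_combination c₁ - c₃)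
  have : t₁ + t₂ + t₃ - 432 * m' ^ 2 = 0 :=
    mul_left_cancel₀ (sub_ne_zero.mpr T32) (by linear_combination u31 - u12)
  linear_combination this

variable [IsAlgClosed K] (hΔ : W.Δ ≠ 0)

include hΔ in
theorem exists_independent {P : W.toAffine.Point} :
    ∃ Q : W.toAffine.Point, (3 : ℕ) • Q = 0 ∧ Q ≠ 0 ∧ Q ≠ P ∧ Q ≠ -P := by
  classical
  have hc := ECTorsion.natCard_torsionBy (W := W) hΔ (n := 3) (by norm_num)
  by_contra hno
  push Not at hno
  let f : Submodule.torsionBy ℤ W.toAffine.Point ((3 : ℕ) : ℤ) → ({0, P, -P} : Finset W.toAffine.Point) :=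
    fun R => ⟨R.1, by
      have h3 : (3 : ℕ) • R.1 = 0 := by
        rw [← natCast_zsmul]; exact (Submodule.mem_torsionBy_iff _ _).mp R.2
      simp only [Finset.mem_insert, Finset.mem_singleton]
      by_cases h0 : R.1 = 0
      · exact Or.inl h0
      by_cases h1 : R.1 = P
      · exact Or.inr (Or.inl h1)
      exact Or.inr (Or.inr (hno _ h3 h0 h1))⟩
  have hle := Nat.card_le_card_of_injective f fun R S e => Subtype.ext (Subtype.mk.inj e)
  rw [hc, Nat.card_eq_fintype_card, Fintype.card_coe] at hle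
  have := Finset.card_le_three (a := (0 : W.toAffine.Point)) (b := P) (c := -P)
  omega

include hΔ in
theorem three_nsmul_hessePoint {P : W.toAffine.Point} (hP3 : (3 : ℕ) • P = 0) :
    (3 : ℕ) • hessePoint hΔ' P = 0 := by
  rcases eq_or_ne P 0 with rfl | hP
  · rw [hessePoint_zero, smul_zero]
  obtain ⟨Q, hQ3, hQ, hQP, hQP'⟩ := exists_independent hΔ (P := P)
  have hP2 : P + P = -P := by rw [← add_eq_zero_iff_eq_neg, ← hP3]; abel
  have h1 := hessePoint_add_core hΔ' hP3 hQ3 hP hQ hQP.symm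
    (fun e => hQP' (by rw [e, neg_neg]))
  have hS3 : (3 : ℕ) • (P + Q) = 0 := by rw [nsmul_add, hP3, hQ3, add_zero]
  have hS : P + Q ≠ 0 := fun e => hQP' (eq_neg_of_add_eq_zero_right e)
  have h2 := hessePoint_add_core hΔ' hP3 hS3 hP hS
    (fun e => hQ (left_eq_add.mp e))
    (fun e => hQP (by
      have e' : Q = -(P + P) := by
        rw [eq_neg_iff_add_eq_zero] at e ⊢; rw [← e]; abel
      rw [e', hP2, neg_neg]))
  have hnP3 : (3 : ℕ) • -P = 0 := by rw [neg_nsmul, hP3, neg_zero]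
  have h3 := hessePoint_add_core hΔ' hnP3 hQ3 (neg_ne_zero.mpr hP) hQ hQP'.symm
    (fun e => hQP (neg_injective e).symm)
  rw [← add_assoc, hP2, h3, h1, hessePoint_neg hΔ' hP3] at h2
  linear_combination (norm := abel) (-1 : ℤ) • h2

include hΔ in
theorem hessePoint_add {P Q : W.toAffine.Point} (hP3 : (3 : ℕ) • P = 0) (hQ3 : (3 : ℕ) • Q = 0) :
    hessePoint hΔ' (P + Q) = hessePoint hΔ' P + hessePoint hΔ' Q := by
  rcases eq_or_ne P 0 with rfl | hP
  · rw [zero_add, hessePoint_zero, zero_add]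
  rcases eq_or_ne Q 0 with rfl | hQ
  · rw [add_zero, hessePoint_zero, add_zero]
  rcases eq_or_ne P (-Q) with rfl | hPQ'
  · rw [neg_add_cancel, hessePoint_neg hΔ' hQ3, neg_add_cancel, hessePoint_zero]
  rcases eq_or_ne P Q with rfl | hPQ
  · have hP2 : P + P = -P := by rw [← add_eq_zero_iff_eq_neg, ← hP3]; abel
    rw [hP2, hessePoint_neg hΔ' hP3]
    linear_combination (norm := abel) (-1 : ℤ) • three_nsmul_hessePoint hΔ' hΔ hP3
  exact hessePoint_add_core hΔ' hP3 hQ3 hP hQ hPQ hPQ'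

end Fermat.Agent.Extra.SwitchThree
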