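import Mathlib
import Fermat.Prelude.Def_EllipticCurve_FrobeniusTrace
import Fermat.Agent.ECFrob.Main
import Fermat.Agent.Galois.Decomposition
import Fermat.Agent.Switch35.Main
import Fermat.Agent.Extra.SwitchThree.Torsion

/-!
# Traces of Frobenius modulo `3` agree along the pencil
-/

set_option autoImplicit false

noncomputable section

namespace Fermat.Agent.Extra.SwitchThree

open WeierstrassCurve
open Fermat.Agent.Switch35 (castPoint castPoint_some modCurve)
open scoped WeierstrassCurve.Affine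

local notation "Qb" => AlgebraicClosure ℚ

/-- Equality of traces on the `3`-torsion of a curve over `ℚ` and a member of its pencil. -/
theorem galoisTrace_three_eq {K : Type*} [Field K] [CharZero K] [IsAlgClosed K] [DecidableEq K]
    [Algebra ℚ K] (E E' : WeierstrassCurve ℚ) (l u : ℚ) (hΔ : E.Δ ≠ 0) (hΔ' : E'.Δ ≠ 0)
    (hfam : (E'⁄K) = hesseCurve (E⁄K) (algebraMap ℚ K l) (algebraMap ℚ K u))
    (σ : K ≃ₐ[ℚ] K) :
    Affine.Point.galoisTrace (K := K) ℚ E' 3 σ = Affine.Point.galoisTrace (K := K) ℚ E 3 σ := by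
  have hΔK : (E⁄K).Δ ≠ 0 := by simpa [WeierstrassCurve.baseChange, WeierstrassCurve.map_Δ] using hΔ
  have hΔ'K := hfam ▸ (show (E'⁄K).Δ ≠ 0 by
    simpa [WeierstrassCurve.baseChange, WeierstrassCurve.map_Δ] using hΔ')
  let T := Submodule.torsionBy ℤ (E⁄K).toAffine.Point ((3 : ℕ) : ℤ)
  let T' := Submodule.torsionBy ℤ (E'⁄K).toAffine.Point ((3 : ℕ) : ℤ)
  have mem : ∀ {C : WeierstrassCurve K} (P : C.toAffine.Point),
      P ∈ Submodule.torsionBy ℤ C.toAffine.Point ((3 : ℕ) : ℤ) ↔ (3 : ℕ) • P = 0 := fun P => by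
    rw [Submodule.mem_torsionBy_iff, natCast_zsmul]
  let f : T →+ T' :=
    { toFun := fun P => ⟨(castPoint hfam).symm (hessePoint hΔ'K P.1), by
        rw [mem (C := (E'⁄K)), ← map_nsmul (castPoint hfam).symm,
          three_nsmul_hessePoint hΔ'K hΔK ((mem P.1).mp P.2), map_zero]⟩
      map_zero' := Subtype.ext (by
        show (castPoint hfam).symm (hessePoint hΔ'K 0) = 0
        rw [hessePoint_zero, map_zero])
      map_add' := fun P Q => Subtype.ext (by
        show (castPoint hfam).symm (hessePoint hΔ'K (P.1 + Q.1)) =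
          (castPoint hfam).symm (hessePoint hΔ'K P.1) + (castPoint hfam).symm (hessePoint hΔ'K Q.1)
        rw [hessePoint_add hΔ'K hΔK ((mem P.1).mp P.2) ((mem Q.1).mp Q.2), map_add]) }
  have hinj : Function.Injective f := by
    rw [injective_iff_map_eq_zero]
    intro P hP
    by_contra h0
    refine hessePoint_ne_zero hΔ'K ((mem P.1).mp P.2) (fun e => h0 (Subtype.ext e)) ?_
    exact (castPoint hfam).symm.map_eq_zero_iff.mp (congrArg Subtype.val hP)
  have hf : Function.Bijective f := by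
    have c := ECTorsion.natCard_torsionBy (W := (E⁄K)) hΔK (n := 3) (by norm_num)
    have c' := ECTorsion.natCard_torsionBy (W := (E'⁄K))
      (by rw [hfam]; exact hΔ'K) (n := 3) (by norm_num)
    have : Finite T' := Nat.finite_of_card_ne_zero (by rw [c']; norm_num)
    exact hinj.bijective_of_nat_card_le (by rw [c, c'])
  have hequiv : ∀ P : T, f (σ • P) = σ • f P := by
    intro P
    apply Subtype.ext
    show (castPoint hfam).symm (hessePoint hΔ'K (Affine.Point.map σ.toAlgHom P.1)) =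
      Affine.Point.map σ.toAlgHom ((castPoint hfam).symm (hessePoint hΔ'K P.1))
    obtain ⟨P, hP⟩ := P
    have h3 := (mem P).mp hP
    rcases P with - | ⟨x, y, h⟩
    · simp [← Affine.Point.zero_def, hessePoint_zero]
    have h3' := h3
    apply_fun Affine.Point.map σ.toAlgHom at h3'
    rw [map_nsmul, map_zero, Affine.Point.map_some] at h3'
    rw [Affine.Point.map_some, hessePoint_some hΔ'K h3', hessePoint_some hΔ'K h3]
    have hdef : ∀ (a b : K) (g : (hesseCurve (E⁄K) (algebraMap ℚ K l)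
        (algebraMap ℚ K u)).toAffine.Nonsingular a b),
        (castPoint hfam).symm (.some a b g) = .some a b (hfam.symm ▸ g) := by
      intro a b g
      rw [AddEquiv.symm_apply_eq, castPoint_some]
    rw [hdef, hdef, Affine.Point.map_some]
    simp only [Affine.Point.some.injEq]
    simp [hesseX, hesseY, ordOf, thetaOf, hesseTheta, hesseScale, WeierstrassCurve.baseChange,
      map_b₂, map_c₄, map_c₆, map_ofNat]
  let e : T ≃ₗ[ZMod 3] T' := LinearEquiv.ofBijective (f.toZModLinearMap 3) hf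
  rw [Affine.Point.galoisTrace_def, Affine.Point.galoisTrace_def,
    ← LinearMap.trace_conj' (Affine.Point.galoisRepModuleEnd ℚ E 3 σ) e]
  congr 1
  refine LinearMap.ext fun R => ?_
  obtain ⟨P, rfl⟩ := e.surjective R
  rw [LinearEquiv.conj_apply_apply, LinearEquiv.symm_apply_apply]
  exact (hequiv P).symm

/-- Traces of Frobenius modulo `3` agree along the pencil. -/
theorem three_dvd_apOfModel_sub (W W' : WeierstrassCurve ℤ) (hΔ : W.Δ ≠ 0) (hΔ' : W'.Δ ≠ 0)
    (h₁ : W'.a₁ = W.a₁) (h₂ : W'.a₂ = W.a₂) (h₃ : W'.a₃ = W.a₃) {l u : ℤ}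
    (h4 : W'.c₄ = hesseFour W.c₄ W.c₆ l u) (h6 : W'.c₆ = hesseSix W.c₄ W.c₆ l u)
    {ℓ : ℕ} (hℓ : ℓ.Prime) (hg : W.IsGoodPrimeFor ℓ) (hg' : W'.IsGoodPrimeFor ℓ) (h3 : ℓ ≠ 3) :
    (3 : ℤ) ∣ W'.apOfModel ℓ - W.apOfModel ℓ := by
  classical
  obtain ⟨A, σ, hA, hσ⟩ := Galois.exists_place_isFrobeniusAt hℓ
  have p3 : Nat.Prime 3 := Nat.prime_three
  have t := ECFrob.galoisTrace_eq_apOfModel W hℓ p3 h3 hg A hA σ hσ
  have t' := ECFrob.galoisTrace_eq_apOfModel W' hℓ p3 h3 hg' A hA σ hσ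
  have hfam : ((W'.map (Int.castRingHom ℚ)).map (algebraMap ℚ Qb)) =
      hesseCurve ((W.map (Int.castRingHom ℚ)).map (algebraMap ℚ Qb))
        (algebraMap ℚ Qb (l : ℚ)) (algebraMap ℚ Qb (u : ℚ)) := by
    have hc4 : ((W.map (Int.castRingHom ℚ)).map (algebraMap ℚ Qb)).c₄ = (W.c₄ : Qb) := by
      simp [map_c₄]
    have hc6 : ((W.map (Int.castRingHom ℚ)).map (algebraMap ℚ Qb)).c₆ = (W.c₆ : Qb) := by
      simp [map_c₆]
    have e4 : hesseFour (W.c₄ : Qb) (W.c₆ : Qb) (algebraMap ℚ Qb (l : ℚ)) (algebraMap ℚ Qb (u : ℚ))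
        = (W'.c₄ : Qb) := by
      rw [h4, map_intCast, map_intCast]; exact (map_hesseFour (Int.castRingHom Qb) _ _ _ _).symm
    have e6 : hesseSix (W.c₄ : Qb) (W.c₆ : Qb) (algebraMap ℚ Qb (l : ℚ)) (algebraMap ℚ Qb (u : ℚ))
        = (W'.c₆ : Qb) := by
      rw [h6, map_intCast, map_intCast]; exact (map_hesseSix (Int.castRingHom Qb) _ _ _ _).symm
    rw [hesseCurve, hc4, hc6, e4, e6, modCurve]
    ext
    · simp [h₁]
    · simp [h₂]
    · simp [h₃]
    · simp [c₄, b₂, b₄, h₁, h₂, h₃]; ring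
    · simp [c₄, c₆, b₂, b₄, b₆, h₁, h₂, h₃]; ring
  have heq := galoisTrace_three_eq (K := Qb) (W.map (Int.castRingHom ℚ))
    (W'.map (Int.castRingHom ℚ)) (l : ℚ) (u : ℚ) (by simp [map_Δ, hΔ]) (by simp [map_Δ, hΔ'])
    hfam σ
  rw [t, t'] at heq
  exact (ZMod.intCast_zmod_eq_zero_iff_dvd _ 3).mp (by push_cast; rw [heq, sub_self])

end Fermat.Agent.Extra.SwitchThree
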