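import Mathlib
import Fermat.Agent.EC35.Reducible
import Fermat.Agent.Extra.Switch.Statements
import Fermat.Agent.Extra.SwitchThree.Trace
import Fermat.Agent.Extra.SwitchThree.Model
import Fermat.Agent.Extra.SwitchThree.Count

/-!
# The switch at `3`

A semistable model is congruent modulo `3` to a semistable model with irreducible mod `5`
representation.
-/

set_option autoImplicit false

noncomputable section

namespace Fermat.Agent.Extra

open WeierstrassCurve SwitchThree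

/-- The switch at `3`. -/
theorem switchThree : StmtSwitchThree := by
  intro W hΔ hW _
  obtain ⟨-, n6⟩ := Switch35.c₄_ne_zero_and_c₆_ne_zero W hΔ hW
  obtain ⟨l, u, hl, hu, hcop, hD, hirr⟩ :=
    exists_member_not_fiveParam (C₄ := W.c₄) (C₆ := W.c₆) hΔ n6 (progMod_pos hΔ)
  obtain ⟨W', hW', h₁, h₂, h₃, h4, h6, hΔ'eq⟩ := exists_semistable_member W hW hl hu hcop
  have hΔ' : W'.Δ ≠ 0 := by rw [hΔ'eq]; exact mul_ne_zero hΔ (pow_ne_zero 3 hD)
  have hcop' : IsCoprime (hesseFour W.c₄ W.c₆ l u) (W.Δ * hesseDisc W.c₄ W.c₆ l u ^ 3) := by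
    rw [← h4, ← hΔ'eq, Int.isCoprime_iff_gcd_eq_one]
    refine Nat.eq_one_iff_not_exists_prime_dvd.mpr fun q hq hdvd => ?_
    exact hW' q hq (Int.natCast_dvd.mpr (hdvd.trans (Nat.gcd_dvd_right _ _)))
      (Int.natCast_dvd.mpr (hdvd.trans (Nat.gcd_dvd_left _ _)))
  refine ⟨W', hΔ', hW', ?_, fun ℓ hℓ hg hg' h3 =>
    three_dvd_apOfModel_sub W W' hΔ hΔ' h₁ h₂ h₃ h4 h6 hℓ hg hg' h3⟩
  by_contra hred
  obtain ⟨r, hr, e⟩ := EC35.exists_five_param_of_reducible
    (E := W'.map (Int.castRingHom ℚ)) (by simp [map_Δ, hΔ']) hred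
  apply hirr hcop' r hr
  have h4' : (W'.c₄ : ℚ) = hesseFour (W.c₄ : ℚ) (W.c₆ : ℚ) (l : ℚ) (u : ℚ) := by
    rw [h4]; exact map_hesseFour (Int.castRingHom ℚ) _ _ _ _
  rw [← h4', ← hΔ'eq]
  simpa [map_c₄, map_Δ] using e

end Fermat.Agent.Extra
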